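/-
Local structure of the torsion of an integral Weierstrass curve at a prime of multiplicative
reduction: the vocabulary.
-/
import Fermat.Prelude.Def_EllipticCurve_ZeroComponentAt
import Fermat.Prelude.Def_FLTPrelim_Ramification
import Mathlib.NumberTheory.Padics.PadicVal.Basic
import Mathlib.RingTheory.RootsOfUnity.PrimitiveRoots

set_option autoImplicit false

noncomputable section

namespace Fermat.Agent.Tate

open scoped WeierstrassCurve.Affine

local notation "Qbar" => AlgebraicClosure ℚ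

/-- The points over `Qbar` of an integral Weierstrass curve. -/
abbrev QbarPoint (W : WeierstrassCurve ℤ) : Type :=
  ((W.map (Int.castRingHom ℚ))⁄Qbar).Point

/-- The quadratic character attached to a square root `δ` of a rational number. -/
def twistSign (δ : Qbar) (σ : Qbar ≃ₐ[ℚ] Qbar) : ℤ :=
  if σ δ = δ then 1 else -1

theorem twistSign_eq_or (δ : Qbar) (σ : Qbar ≃ₐ[ℚ] Qbar) :
    twistSign δ σ = 1 ∨ twistSign δ σ = -1 := by
  unfold twistSign
  split_ifs <;> simp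

theorem twistSign_mul_self (δ : Qbar) (σ : Qbar ≃ₐ[ℚ] Qbar) :
    twistSign δ σ * twistSign δ σ = 1 := by
  rcases twistSign_eq_or δ σ with h | h <;> simp [h]

/-- `δ` cuts out the unramified twist at `A`: it is a nonzero square root of a rational number and
is fixed by inertia. -/
structure IsTateTwist (A : ValuationSubring Qbar) (δ : Qbar) : Prop where
  ne_zero : δ ≠ 0
  exists_sq : ∃ d : ℚ, δ ^ 2 = (d : Qbar)
  inertia_fixed : ∀ σ ∈ A.inertiaSubgroupIn ℚ, σ δ = δ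

namespace IsTateTwist

variable {A : ValuationSubring Qbar} {δ : Qbar}

theorem apply_eq_or (h : IsTateTwist A δ) (σ : Qbar ≃ₐ[ℚ] Qbar) : σ δ = δ ∨ σ δ = -δ := by
  obtain ⟨d, hd⟩ := h.exists_sq
  refine sq_eq_sq_iff_eq_or_eq_neg.1 ?_
  rw [← map_pow, hd, map_ratCast]

theorem apply_eq (h : IsTateTwist A δ) (σ : Qbar ≃ₐ[ℚ] Qbar) :
    σ δ = (twistSign δ σ : Qbar) * δ := by
  unfold twistSign
  split_ifs with hs
  · simp [hs]
  · simp [(h.apply_eq_or σ).resolve_left hs]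

theorem twistSign_mul (h : IsTateTwist A δ) (σ τ : Qbar ≃ₐ[ℚ] Qbar) :
    twistSign δ (σ * τ) = twistSign δ σ * twistSign δ τ := by
  have h1 := h.apply_eq (σ * τ)
  have h2 : (σ * τ) δ = ((twistSign δ σ * twistSign δ τ : ℤ) : Qbar) * δ := by
    rw [AlgEquiv.mul_apply, h.apply_eq τ, map_mul, map_intCast, h.apply_eq σ]
    push_cast
    ring
  rw [h1] at h2
  exact_mod_cast mul_right_cancel₀ h.ne_zero h2

theorem twistSign_eq_one (h : IsTateTwist A δ) {σ : Qbar ≃ₐ[ℚ] Qbar}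
    (hσ : σ ∈ A.inertiaSubgroupIn ℚ) : twistSign δ σ = 1 := by
  simp [twistSign, h.inertia_fixed σ hσ]

end IsTateTwist

/-- The `n`-torsion of a curve with multiplicative reduction at `q` as a module over the
decomposition group of `A`: it is the twist by `δ` of the `n`-torsion of
`Qbar^* / q₀^ℤ`, the first basis vector being `ζ` and the second one `t = q₀^(1/n)`.
The span of `P₁` is the part of `E[n]` in the identity component. -/
structure TateBasis (W : WeierstrassCurve ℤ) (A : ValuationSubring Qbar) (q : ℕ) (δ : Qbar)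
    (n : ℕ) where
  ζ : Qbar
  t : Qbar
  q₀ : ℚ
  P₁ : QbarPoint W
  P₂ : QbarPoint W
  ζ_primitive : IsPrimitiveRoot ζ n
  t_pow : t ^ n = (q₀ : Qbar)
  q₀_ne_zero : q₀ ≠ 0
  val_q₀ : padicValRat q q₀ = padicValInt q W.Δ
  smul_n_P₁ : (n : ℤ) • P₁ = 0
  smul_n_P₂ : (n : ℤ) • P₂ = 0
  exists_comb : ∀ P : QbarPoint W, (n : ℤ) • P = 0 → ∃ a b : ℤ, P = a • P₁ + b • P₂
  dvd_of_comb_eq_zero : ∀ a b : ℤ, a • P₁ + b • P₂ = 0 → (n : ℤ) ∣ a ∧ (n : ℤ) ∣ b
  inZeroComponentAt_iff : ∀ a b : ℤ,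
    W.InZeroComponentAt A (a • P₁ + b • P₂) ↔ (n : ℤ) ∣ b
  smul_P₁ : ∀ σ ∈ A.decompositionSubgroup ℚ, ∀ a : ℕ, σ ζ = ζ ^ a →
    σ • P₁ = (twistSign δ σ * (a : ℤ)) • P₁
  smul_P₂ : ∀ σ ∈ A.decompositionSubgroup ℚ, ∀ k : ℕ, σ t = ζ ^ k * t →
    σ • P₂ = twistSign δ σ • ((k : ℤ) • P₁ + P₂)

namespace TateBasis

variable {W : WeierstrassCurve ℤ} {A : ValuationSubring Qbar} {q : ℕ} {δ : Qbar} {n : ℕ}

theorem exists_apply_ζ (T : TateBasis W A q δ n) [NeZero n] (σ : Qbar ≃ₐ[ℚ] Qbar) :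
    ∃ a : ℕ, σ T.ζ = T.ζ ^ a := by
  have h : σ T.ζ ^ n = 1 := by rw [← map_pow, T.ζ_primitive.pow_eq_one, map_one]
  obtain ⟨a, -, ha⟩ := T.ζ_primitive.eq_pow_of_pow_eq_one h
  exact ⟨a, ha.symm⟩

theorem t_ne_zero (T : TateBasis W A q δ n) [NeZero n] : T.t ≠ 0 := by
  intro h
  have := T.t_pow
  rw [h, zero_pow (NeZero.ne n)] at this
  exact T.q₀_ne_zero (Rat.cast_eq_zero.1 this.symm)

theorem exists_apply_t (T : TateBasis W A q δ n) [NeZero n] (σ : Qbar ≃ₐ[ℚ] Qbar) :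
    ∃ k : ℕ, σ T.t = T.ζ ^ k * T.t := by
  have h : (σ T.t / T.t) ^ n = 1 := by
    rw [div_pow, ← map_pow, T.t_pow, map_ratCast, div_self (Rat.cast_ne_zero.2 T.q₀_ne_zero)]
  obtain ⟨k, -, hk⟩ := T.ζ_primitive.eq_pow_of_pow_eq_one h
  exact ⟨k, by rw [hk, div_mul_cancel₀ _ T.t_ne_zero]⟩

end TateBasis

end Fermat.Agent.Tate
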