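/-
A complete nonarchimedean field attached to a place `A` of `Qbar` over `q`, with the action of the
decomposition group.
-/
import Fermat.Agent.Galois.Frobenius
import Mathlib.NumberTheory.Padics.Complex
import Mathlib.NumberTheory.Padics.PadicVal.Basic

set_option autoImplicit false

noncomputable section

open UniformSpace
open scoped Pointwise

namespace Fermat.Agent.Tate

local notation "Qbar" => AlgebraicClosure ℚ

/-- A complete nonarchimedean field containing `Qbar` and inducing the place `A`, with the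
decomposition group acting on it by isometries. -/
structure PlaceField (A : ValuationSubring Qbar) (q : ℕ) (K : Type) [NormedField K] where
  j : Qbar →+* K
  norm_le_one_iff : ∀ x, ‖j x‖ ≤ 1 ↔ x ∈ A
  exists_extend : ∀ σ ∈ A.decompositionSubgroup ℚ,
    ∃ τ : K →+* K, Continuous τ ∧ (∀ x, ‖τ x‖ = ‖x‖) ∧ ∀ x, τ (j x) = j (σ x)
  norm_q_lt_one : ‖(q : K)‖ < 1

namespace PlaceField

variable {A : ValuationSubring Qbar} {q : ℕ} {K : Type} [NormedField K]

theorem norm_lt_one_iff (F : PlaceField A q K) (x : Qbar) : ‖F.j x‖ < 1 ↔ x ∈ A.nonunits := by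
  rw [ValuationSubring.mem_nonunits_iff_or]
  rcases eq_or_ne x 0 with rfl | hx
  · simp
  · have hj : 0 < ‖F.j x‖ := norm_pos_iff.2 ((map_ne_zero _).2 hx)
    simp only [hx, false_or, ← F.norm_le_one_iff, map_inv₀, norm_inv, not_le,
      one_lt_inv_iff₀, hj, true_and]

variable [IsUltrametricDist K]

theorem norm_intCast_lt_one_iff (F : PlaceField A q K) (hq : q.Prime) (n : ℤ) :
    ‖(n : K)‖ < 1 ↔ (q : ℤ) ∣ n := by
  have hA : A.LiesOverPrime q := by
    show (q : Qbar) ∈ A.nonunits
    rw [← F.norm_lt_one_iff, map_natCast]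
    exact F.norm_q_lt_one
  rw [← Galois.intCast_mem_nonunits_iff hq hA n, ← F.norm_lt_one_iff, map_intCast]

theorem norm_intCast_eq_one (F : PlaceField A q K) (hq : q.Prime) {n : ℤ} (hn : ¬ (q : ℤ) ∣ n) :
    ‖(n : K)‖ = 1 :=
  le_antisymm (IsUltrametricDist.norm_intCast_le_one K n)
    (not_lt.1 fun h => hn ((F.norm_intCast_lt_one_iff hq n).1 h))

theorem norm_natCast_eq_pow (F : PlaceField A q K) (hq : q.Prime) {n : ℕ} (hn : n ≠ 0) :
    ‖(n : K)‖ = ‖(q : K)‖ ^ padicValNat q n := by
  have : Fact q.Prime := ⟨hq⟩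
  obtain ⟨m, hm⟩ := pow_padicValNat_dvd (p := q) (n := n)
  have hqm : ¬ (q : ℤ) ∣ (m : ℤ) := by
    intro h
    obtain ⟨c, hc⟩ := Int.natCast_dvd_natCast.1 h
    exact pow_succ_padicValNat_not_dvd hn ⟨c, by rw [pow_succ, mul_assoc, ← hc, ← hm]⟩
  have h1 : ‖(m : K)‖ = 1 := by exact_mod_cast F.norm_intCast_eq_one hq hqm
  conv_lhs => rw [hm, Nat.cast_mul, Nat.cast_pow, norm_mul, norm_pow, h1, mul_one]

theorem norm_intCast_eq_pow (F : PlaceField A q K) (hq : q.Prime) {n : ℤ} (hn : n ≠ 0) :
    ‖(n : K)‖ = ‖(q : K)‖ ^ padicValInt q n := by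
  rw [padicValInt, ← F.norm_natCast_eq_pow hq (Int.natAbs_ne_zero.2 hn)]
  rcases Int.natAbs_eq n with h | h <;> conv_lhs => rw [h]
  · rw [Int.cast_natCast]
  · rw [Int.cast_neg, norm_neg, Int.cast_natCast]

theorem norm_ratCast_eq_zpow (F : PlaceField A q K) [CharZero K] (hq : q.Prime) {r : ℚ}
    (hr : r ≠ 0) : ‖(r : K)‖ = ‖(q : K)‖ ^ padicValRat q r := by
  have hd : ‖(q : K)‖ ≠ 0 := norm_ne_zero_iff.2 (Nat.cast_ne_zero.2 hq.ne_zero)
  rw [padicValRat, Rat.cast_def, norm_div, F.norm_intCast_eq_pow hq (Rat.num_ne_zero.2 hr),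
    F.norm_natCast_eq_pow hq r.den_nz, zpow_sub₀ hd, zpow_natCast, zpow_natCast]

end PlaceField

/-- An automorphism preserving `A` is an isometry for any norm inducing `A`. -/
theorem norm_apply_eq_of_mem_decomposition {K : Type} [NormedField K]
    {A : ValuationSubring Qbar} (j : Qbar →+* K) (hj : ∀ x, ‖j x‖ ≤ 1 ↔ x ∈ A)
    {σ : Qbar ≃ₐ[ℚ] Qbar} (hσ : σ ∈ A.decompositionSubgroup ℚ) (x : Qbar) :
    ‖j (σ x)‖ = ‖j x‖ := by
  have hmem : ∀ y, σ y ∈ A ↔ y ∈ A := fun y => by
    have h : σ • A = A := hσ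
    conv_lhs => rw [← h]
    exact ValuationSubring.smul_mem_pointwise_smul_iff
  have hmono : ∀ a b : Qbar, ‖j (σ a)‖ ≤ ‖j (σ b)‖ ↔ ‖j a‖ ≤ ‖j b‖ := by
    intro a b
    rcases eq_or_ne b 0 with rfl | hb
    · simp
    · have hb' : 0 < ‖j b‖ := norm_pos_iff.2 ((map_ne_zero _).2 hb)
      have hσb : 0 < ‖j (σ b)‖ := norm_pos_iff.2 ((map_ne_zero _).2 ((map_ne_zero _).2 hb))
      rw [← div_le_one hσb, ← div_le_one hb', ← norm_div, ← norm_div, ← map_div₀, ← map_div₀,
        ← map_div₀, hj, hj, hmem]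
  set f : ℕ → ℝ := fun i => ‖j ((σ ^ i) x)‖ with hf
  have hpow : ∀ (i : ℕ) (y : Qbar), (σ ^ (i + 1)) y = σ ((σ ^ i) y) := fun i y => by
    rw [pow_succ', AlgEquiv.mul_apply]
  obtain ⟨d, hd0, hd⟩ : ∃ d, 0 < d ∧ (σ ^ d) x = x := by
    classical
    have hfin : ((minpoly ℚ x).rootSet Qbar).Finite := Polynomial.rootSet_finite _ _
    have hmem' : ∀ i : ℕ, (σ ^ i) x ∈ (minpoly ℚ x).rootSet Qbar := by
      intro i
      rw [Polynomial.mem_rootSet]
      refine ⟨minpoly.ne_zero (Algebra.IsIntegral.isIntegral x), ?_⟩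
      rw [Polynomial.aeval_algEquiv, AlgHom.comp_apply]
      simp [minpoly.aeval]
    obtain ⟨a, -, b, -, hab, he⟩ := Set.infinite_univ.exists_ne_map_eq_of_mapsTo
      (fun i _ => hmem' i) hfin
    wlog h : a < b generalizing a b
    · exact this b a hab.symm he.symm (lt_of_le_of_ne (not_lt.1 h) hab.symm)
    refine ⟨b - a, by omega, (σ ^ a).injective ?_⟩
    rw [← AlgEquiv.mul_apply, ← pow_add, Nat.add_sub_cancel' h.le]
    exact he.symm
  have hstep : ∀ i, (‖j (σ x)‖ ≤ ‖j x‖ → f (i + 1) ≤ f i) ∧ (‖j x‖ ≤ ‖j (σ x)‖ → f i ≤ f (i + 1)) := by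
    intro i
    induction i with
    | zero => simp [hf]
    | succ i ih =>
      simp only [hf] at ih ⊢
      rw [hpow (i + 1), hpow i, hmono, hmono]
      rwa [hpow i] at ih
  rcases le_total ‖j (σ x)‖ ‖j x‖ with h | h
  · refine le_antisymm h ?_
    have hanti : Antitone f := antitone_nat_of_succ_le fun i => (hstep i).1 h
    have h2 : f d ≤ f 1 := hanti (by omega)
    simp only [hf, pow_one, hd] at h2
    exact h2
  · refine le_antisymm ?_ h
    have hmon : Monotone f := monotone_nat_of_le_succ fun i => (hstep i).2 h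
    have h2 : f 1 ≤ f d := hmon (by omega)
    simp only [hf, pow_one, hd] at h2
    exact h2

theorem exists_embedding_padicAlgCl {q : ℕ} (hq : q.Prime) {A : ValuationSubring Qbar}
    (hA : A.LiesOverPrime q) [Fact q.Prime] :
    ∃ j : Qbar →+* PadicAlgCl q, ∀ x, ‖j x‖ ≤ 1 ↔ x ∈ A := by
  let ι : Qbar →ₐ[ℚ] PadicAlgCl q := IsAlgClosed.lift
  let A₀ : ValuationSubring Qbar :=
    { carrier := {x | ‖ι x‖ ≤ 1}
      one_mem' := by simp
      mul_mem' := fun {a b} ha hb => by
        simp only [Set.mem_ofPred_eq, map_mul, norm_mul] at *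
        exact mul_le_one₀ ha (norm_nonneg _) hb
      zero_mem' := by simp
      add_mem' := fun {a b} ha hb => by
        simp only [Set.mem_ofPred_eq, map_add] at *
        exact (IsUltrametricDist.norm_add_le_max _ _).trans (max_le ha hb)
      neg_mem' := fun {a} ha => by simpa using ha
      mem_or_inv_mem' := fun a => by
        simp only [Set.mem_ofPred_eq, map_inv₀, norm_inv]
        rcases le_total ‖ι a‖ 1 with h | h
        · exact Or.inl h
        · exact Or.inr (inv_le_one_of_one_le₀ h) }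
  have hA₀ : A₀.LiesOverPrime q := by
    show (q : Qbar) ∈ A₀.nonunits
    rw [ValuationSubring.mem_nonunits_iff_or]
    refine Or.inr ?_
    show ¬ ‖ι (q : Qbar)⁻¹‖ ≤ 1
    rw [map_inv₀, map_natCast, ← map_natCast (algebraMap ℚ_[q] (PadicAlgCl q)), norm_inv]
    erw [PadicAlgCl.norm_extends]
    rw [Padic.norm_p, inv_inv, not_le]
    exact_mod_cast hq.one_lt
  obtain ⟨σ, hσ⟩ := Galois.exists_smul_eq_of_liesOverPrime hq hA₀ hA
  refine ⟨(ι : Qbar →+* PadicAlgCl q).comp (σ⁻¹ : Qbar ≃ₐ[ℚ] Qbar).toRingHom, fun x => ?_⟩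
  rw [← hσ, ValuationSubring.mem_pointwise_smul_iff_inv_smul_mem]
  rfl

section completion

variable {q : ℕ} [Fact q.Prime] (j : AlgebraicClosure ℚ →+* PadicAlgCl q)

/-- The completion of the image of `Qbar`. -/
abbrev PlaceCompletion : Type := Completion j.fieldRange

instance isUltrametricDist_fieldRange : IsUltrametricDist j.fieldRange :=
  ⟨fun x y z => IsUltrametricDist.dist_triangle_max (x : PadicAlgCl q) y z⟩

instance isUltrametricDist_placeCompletion : IsUltrametricDist (PlaceCompletion j) where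
  dist_triangle_max x y z := by
    induction x, y, z using Completion.induction_on₃ with
    | hp =>
      exact isClosed_le (continuous_fst.dist continuous_snd.snd)
        ((continuous_fst.dist continuous_snd.fst).max (continuous_snd.fst.dist continuous_snd.snd))
    | ih x y z =>
      simp only [Completion.dist_eq]
      exact IsUltrametricDist.dist_triangle_max x y z

theorem charZero_placeCompletion : CharZero (PlaceCompletion j) := by
  refine ⟨fun m n h => ?_⟩
  rw [← map_natCast (Completion.coeRingHom (α := j.fieldRange)) m,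
    ← map_natCast (Completion.coeRingHom (α := j.fieldRange)) n] at h
  exact Nat.cast_injective (Completion.coe_injective _ h)

end completion

/-- Every place over `q` has a `PlaceField`. -/
theorem exists_placeField {q : ℕ} (hq : q.Prime) {A : ValuationSubring Qbar}
    (hA : A.LiesOverPrime q) :
    ∃ (K : Type) (_ : NormedField K) (_ : IsUltrametricDist K) (_ : CompleteSpace K)
      (_ : CharZero K), Nonempty (PlaceField A q K) := by
  have : Fact q.Prime := ⟨hq⟩
  obtain ⟨j, hj⟩ := exists_embedding_padicAlgCl hq hA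
  let c : Qbar →+* PlaceCompletion j := Completion.coeRingHom.comp j.rangeRestrictField
  have hc : ∀ x, ‖c x‖ = ‖j x‖ := fun x => Completion.norm_coe _
  have hq1 : ‖(q : PlaceCompletion j)‖ < 1 := by
    rw [← map_natCast c q, hc, map_natCast, ← map_natCast (algebraMap ℚ_[q] (PadicAlgCl q))]
    erw [PadicAlgCl.norm_extends]
    exact Padic.norm_p_lt_one
  refine ⟨PlaceCompletion j, inferInstance, inferInstance, inferInstance,
    charZero_placeCompletion j, ⟨⟨c, fun x => by rw [hc]; exact hj x, fun σ hσ => ?_, hq1⟩⟩⟩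
  let e : Qbar ≃+* j.fieldRange := RingEquiv.ofBijective j.rangeRestrictField
    ⟨fun a b h => j.injective (congrArg Subtype.val h), fun y => by
      obtain ⟨a, ha⟩ := y.2
      exact ⟨a, Subtype.ext ha⟩⟩
  let f : j.fieldRange →+* j.fieldRange :=
    (e : Qbar →+* j.fieldRange).comp ((σ : Qbar →+* Qbar).comp e.symm.toRingHom)
  have hiso : Isometry f := by
    refine AddMonoidHomClass.isometry_of_norm f fun x => ?_
    obtain ⟨a, rfl⟩ := e.surjective x
    show ‖e (σ (e.symm (e a)))‖ = ‖e a‖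
    rw [e.symm_apply_apply]
    exact norm_apply_eq_of_mem_decomposition j hj hσ a
  refine ⟨Completion.mapRingHom f hiso.continuous, Completion.continuous_map, fun x => ?_,
    fun x => ?_⟩
  · induction x using Completion.induction_on with
    | hp => exact isClosed_eq Completion.continuous_map.norm continuous_norm
    | ih a =>
      rw [Completion.mapRingHom_coe, Completion.norm_coe, Completion.norm_coe]
      exact AddMonoidHomClass.isometry_iff_norm f |>.1 hiso a
  · show Completion.mapRingHom f hiso.continuous ((e x : j.fieldRange) : PlaceCompletion j) = _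
    rw [Completion.mapRingHom_coe]
    show ((e (σ (e.symm (e x))) : j.fieldRange) : PlaceCompletion j) = _
    rw [e.symm_apply_apply]
    rfl

end Fermat.Agent.Tate
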