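/-
The closure of the rationals in a complete nonarchimedean field of characteristic zero:
roots of elements close to `1` and solutions of `h x = t` for series `h = X + O(X²)`.
-/
import Fermat.Agent.Tate.Eval.ConvSeries
import Mathlib.Algebra.Ring.GeomSum
import Mathlib.Tactic.LinearCombination

set_option autoImplicit false

noncomputable section

namespace Fermat.Agent.Tate

open Filter Topology

variable {K : Type*} [NormedField K] [CharZero K]

/-- The closure of the rationals. -/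
def ratClosure (K : Type*) [NormedField K] [CharZero K] : Subfield K where
  toSubring := ((Rat.castHom K).range).topologicalClosure
  inv_mem' x hx := by
    change x ∈ closure (((Rat.castHom K).range : Subring K) : Set K) at hx
    change x⁻¹ ∈ closure (((Rat.castHom K).range : Subring K) : Set K)
    rcases eq_or_ne x 0 with rfl | h0
    · simpa using hx
    · have hc : ContinuousAt (fun y : K => y⁻¹) x := continuousAt_inv₀ h0
      refine closure_mono ?_ (mem_closure_image hc hx)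
      rintro _ ⟨_, ⟨r, rfl⟩, rfl⟩
      exact ⟨r⁻¹, by simp⟩

theorem isClosed_ratClosure : IsClosed (ratClosure K : Set K) :=
  Subring.isClosed_topologicalClosure _

theorem ratCast_mem_ratClosure (r : ℚ) : (r : K) ∈ ratClosure K :=
  Subring.le_topologicalClosure _ ⟨r, rfl⟩

theorem intCast_mem_ratClosure (n : ℤ) : (n : K) ∈ ratClosure K := intCast_mem _ n

/-- Continuous endomorphisms fix the closure of the rationals. -/
theorem apply_eq_of_mem_ratClosure {τ : K →+* K} (hτ : Continuous τ) {x : K}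
    (hx : x ∈ ratClosure K) : τ x = x := by
  change x ∈ closure (((Rat.castHom K).range : Subring K) : Set K) at hx
  refine Set.EqOn.closure (f := τ) (g := id) ?_ hτ continuous_id hx
  rintro _ ⟨r, rfl⟩
  simp

theorem exists_ratCast_near {x : K} (hx : x ∈ ratClosure K) {ε : ℝ} (hε : 0 < ε) :
    ∃ r : ℚ, ‖(r : K) - x‖ < ε := by
  change x ∈ closure (((Rat.castHom K).range : Subring K) : Set K) at hx
  obtain ⟨_, ⟨r, rfl⟩, hr⟩ := Metric.mem_closure_iff.1 hx ε hε
  exact ⟨r, by rwa [dist_comm, dist_eq_norm] at hr⟩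

variable [IsUltrametricDist K] [CompleteSpace K]

theorem intEval_mem_ratClosure {x : K} (hx : ‖x‖ < 1) (hxR : x ∈ ratClosure K)
    (f : PowerSeries ℤ) : intEval hx f ∈ ratClosure K := by
  rw [intEval_apply]
  have hs : Summable fun n => ((PowerSeries.coeff n f : ℤ) : K) * x ^ n :=
    (intSeries_mem hx f).congr fun n => by simp [intSeries]
  refine isClosed_ratClosure.mem_of_tendsto hs.hasSum (Eventually.of_forall fun s => ?_)
  exact sum_mem fun n _ => mul_mem (intCast_mem _ _) (pow_mem hxR n)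

/-- A contraction of a closed set has a fixed point. -/
theorem exists_fixed_point {S : Set K} (hS : IsClosed S) {T : K → K} {x₀ : K} (hx₀ : x₀ ∈ S)
    (hT : ∀ x ∈ S, T x ∈ S) {c : ℝ} (hc0 : 0 ≤ c) (hc1 : c < 1)
    (hlip : ∀ x ∈ S, ∀ y ∈ S, ‖T x - T y‖ ≤ c * ‖x - y‖) :
    ∃ x ∈ S, T x = x := by
  have hmem : ∀ n, T^[n] x₀ ∈ S := fun n => by
    induction n with
    | zero => exact hx₀
    | succ n ih => rw [Function.iterate_succ_apply']; exact hT _ ih
  have hd : ∀ n, dist (T^[n] x₀) (T^[n + 1] x₀) ≤ ‖x₀ - T x₀‖ * c ^ n := fun n => by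
    induction n with
    | zero => simp [dist_eq_norm]
    | succ n ih =>
      rw [Function.iterate_succ_apply' T n, Function.iterate_succ_apply' T (n + 1), dist_eq_norm]
      refine (hlip _ (hmem n) _ (hmem (n + 1))).trans ?_
      rw [dist_eq_norm] at ih
      rw [pow_succ, ← mul_assoc, mul_comm _ c]
      exact mul_le_mul_of_nonneg_left ih hc0
  obtain ⟨x, hx⟩ := cauchySeq_tendsto_of_complete (cauchySeq_of_le_geometric c _ hc1 hd)
  have hxS : x ∈ S := hS.mem_of_tendsto hx (Eventually.of_forall hmem)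
  refine ⟨x, hxS, ?_⟩
  have h2 : Tendsto (fun n => T^[n + 1] x₀) atTop (𝓝 (T x)) := by
    rw [tendsto_iff_norm_sub_tendsto_zero]
    refine squeeze_zero (fun n => norm_nonneg _) (fun n => ?_)
      (by simpa using (tendsto_iff_norm_sub_tendsto_zero.1 hx).const_mul c)
    rw [Function.iterate_succ_apply']
    exact hlip _ (hmem n) _ hxS
  exact tendsto_nhds_unique h2 (hx.comp (tendsto_add_atTop_nat 1))

omit [CharZero K] [CompleteSpace K] in
theorem norm_pow_sub_pow_le {x y : K} {s : ℝ} (hx : ‖x‖ ≤ s) (hy : ‖y‖ ≤ s) (hs : 0 ≤ s) (n : ℕ) :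
    ‖x ^ (n + 1) - y ^ (n + 1)‖ ≤ s ^ n * ‖x - y‖ := by
  rw [← geom_sum₂_mul, norm_mul]
  refine mul_le_mul_of_nonneg_right ?_ (norm_nonneg _)
  refine IsUltrametricDist.norm_sum_le_of_forall_le_of_nonneg (pow_nonneg hs n) fun i hi => ?_
  have hin : i ≤ n := Nat.lt_succ_iff.1 (Finset.mem_range.1 hi)
  rw [norm_mul, norm_pow, norm_pow]
  calc ‖x‖ ^ i * ‖y‖ ^ (n + 1 - 1 - i) ≤ s ^ i * s ^ (n + 1 - 1 - i) :=
        mul_le_mul (pow_le_pow_left₀ (norm_nonneg _) hx _) (pow_le_pow_left₀ (norm_nonneg _) hy _)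
          (pow_nonneg (norm_nonneg _) _) (pow_nonneg hs _)
    _ = s ^ n := by rw [← pow_add]; congr 1; omega

/-- `h x = t` has a solution for `h = X + O(X²)` and small `t`. -/
theorem exists_intEval_eq (h : PowerSeries ℤ) (h0 : PowerSeries.coeff 0 h = 0)
    (h1 : PowerSeries.coeff 1 h = 1) {t : K} (ht : ‖t‖ < 1) (ht0 : t ≠ 0)
    (htR : t ∈ ratClosure K) :
    ∃ (x : K) (hx : ‖x‖ < 1), x ∈ ratClosure K ∧ ‖x‖ = ‖t‖ ∧ intEval hx h = t := by
  set s := ‖t‖ with hs
  set g := h - PowerSeries.X with hg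
  have hg0 : ∀ n < 2, PowerSeries.coeff n g = 0 := fun n hn => by
    rcases n with _ | _ | n
    · rw [hg, map_sub, h0, PowerSeries.coeff_zero_X, sub_zero]
    · rw [hg, map_sub, h1, PowerSeries.coeff_one_X, sub_self]
    · omega
  let G : K → K := fun x => ∑' n, ((PowerSeries.coeff n g : ℤ) : K) * x ^ n
  have hG : ∀ x (hx : ‖x‖ < 1), intEval hx g = G x := fun x hx => intEval_apply hx g
  have hsum : ∀ x : K, ‖x‖ < 1 → Summable fun n => ((PowerSeries.coeff n g : ℤ) : K) * x ^ n :=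
    fun x hx => (intSeries_mem hx g).congr fun n => by simp [intSeries]
  let S : Set K := (ratClosure K : Set K) ∩ {x | ‖x‖ ≤ s}
  have hSc : IsClosed S := isClosed_ratClosure.inter (isClosed_le continuous_norm continuous_const)
  have hGs : ∀ x ∈ S, ‖G x‖ ≤ s ^ 2 ∧ G x ∈ ratClosure K := fun x hx => by
    have hx1 : ‖x‖ < 1 := lt_of_le_of_lt hx.2 ht
    rw [← hG x hx1]
    exact ⟨(norm_intEval_sub_le hx1 g hg0).trans (pow_le_pow_left₀ (norm_nonneg x) hx.2 2),
      intEval_mem_ratClosure hx1 hx.1 g⟩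
  have hlip : ∀ x ∈ S, ∀ y ∈ S, ‖(t - G x) - (t - G y)‖ ≤ s * ‖x - y‖ := fun x hx y hy => by
    rw [sub_sub_sub_cancel_left]
    simp only [G]
    rw [← Summable.tsum_sub (hsum y (lt_of_le_of_lt hy.2 ht)) (hsum x (lt_of_le_of_lt hx.2 ht))]
    refine IsUltrametricDist.norm_tsum_le_of_forall_le_of_nonneg (by positivity) fun n => ?_
    rw [← mul_sub]
    rcases lt_or_ge n 2 with hn | hn
    · rw [hg0 n hn, Int.cast_zero, zero_mul, norm_zero]
      positivity
    · obtain ⟨m, rfl⟩ : ∃ m, n = m + 1 := ⟨n - 1, by omega⟩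
      rw [norm_mul]
      refine (mul_le_of_le_one_left (norm_nonneg _)
        (IsUltrametricDist.norm_intCast_le_one K _)).trans ?_
      rw [norm_sub_rev]
      refine (norm_pow_sub_pow_le hx.2 hy.2 (norm_nonneg t) m).trans ?_
      exact mul_le_mul_of_nonneg_right (pow_le_of_le_one (norm_nonneg t) ht.le (by omega))
        (norm_nonneg _)
  obtain ⟨x, hxS, hx⟩ := exists_fixed_point hSc (T := fun x => t - G x) (x₀ := t)
    ⟨htR, le_refl ‖t‖⟩ (fun x hx => ⟨sub_mem htR (hGs x hx).2, by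
      show ‖t - G x‖ ≤ s
      rw [sub_eq_add_neg]
      refine (IsUltrametricDist.norm_add_le_max _ _).trans (max_le le_rfl ?_)
      rw [norm_neg]
      exact (hGs x hx).1.trans (pow_le_of_le_one (norm_nonneg t) ht.le two_ne_zero)⟩)
    (norm_nonneg t) ht hlip
  have hx1 : ‖x‖ < 1 := lt_of_le_of_lt hxS.2 ht
  refine ⟨x, hx1, hxS.1, ?_, ?_⟩
  · have hlt : ‖G x‖ < s := lt_of_le_of_lt (hGs x hxS).1
      (by nlinarith [norm_pos_iff.2 ht0])
    rw [← hx, sub_eq_add_neg, IsUltrametricDist.norm_add_eq_max_of_norm_ne_norm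
      (by rw [norm_neg]; exact hlt.ne'), norm_neg, max_eq_left hlt.le]
  · have e : intEval hx1 h = intEval hx1 g + x := by
      rw [hg, map_sub, intEval_X, sub_add_cancel]
    rw [e, hG]
    linear_combination -hx

/-- Elements close to `1` have `n`-th roots. -/
theorem exists_pow_eq {n : ℕ} (hn : n ≠ 0) {c : K} (hcR : c ∈ ratClosure K)
    (hc : ‖c - 1‖ < ‖(n : K)‖ ^ 2) :
    ∃ w ∈ ratClosure K, ‖w - 1‖ < 1 ∧ w ^ n = c := by
  have hN : (n : K) ≠ 0 := Nat.cast_ne_zero.2 hn
  have hN0 : 0 < ‖(n : K)‖ := norm_pos_iff.2 hN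
  set ρ := ‖c - 1‖ / ‖(n : K)‖ with hρ
  have hρN : ρ < ‖(n : K)‖ := by rw [hρ, div_lt_iff₀ hN0, ← pow_two]; exact hc
  have hρ1 : ρ < 1 := hρN.trans_le (IsUltrametricDist.norm_natCast_le_one K n)
  have hρ0 : 0 ≤ ρ := by positivity
  let S : Set K := (ratClosure K : Set K) ∩ {x | ‖x - 1‖ ≤ ρ}
  have hSc : IsClosed S :=
    isClosed_ratClosure.inter (isClosed_le (continuous_id.sub continuous_const).norm continuous_const)
  let T : K → K := fun x => x - (x ^ n - c) / n
  have hle1 : ∀ x ∈ S, ‖x‖ ≤ 1 := fun x hx => by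
    have e : x = (x - 1) + 1 := by ring
    rw [e]
    refine (IsUltrametricDist.norm_add_le_max _ _).trans (max_le (hx.2.trans hρ1.le) ?_)
    rw [norm_one]
  have hpow : ∀ x ∈ S, ∀ i : ℕ, ‖x ^ i - 1‖ ≤ ρ := fun x hx i => by
    rcases i with _ | i
    · simpa using hρ0
    · calc ‖x ^ (i + 1) - 1‖ = ‖x ^ (i + 1) - 1 ^ (i + 1)‖ := by rw [one_pow]
        _ ≤ 1 ^ i * ‖x - 1‖ :=
            norm_pow_sub_pow_le (hle1 x hx) (le_of_eq norm_one) zero_le_one i
        _ ≤ ρ := by rw [one_pow, one_mul]; exact hx.2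
  have hlip : ∀ x ∈ S, ∀ y ∈ S, ‖T x - T y‖ ≤ (ρ / ‖(n : K)‖) * ‖x - y‖ := fun x hx y hy => by
    have e : T x - T y = (x - y) *
        (-(∑ i ∈ Finset.range n, (x ^ i * y ^ (n - 1 - i) - 1)) / n) := by
      simp only [T, Finset.sum_sub_distrib, Finset.sum_const, Finset.card_range, nsmul_one]
      have := geom_sum₂_mul x y n
      field_simp
      linear_combination this
    rw [e, norm_mul, norm_div, norm_neg, mul_comm]
    refine mul_le_mul_of_nonneg_right ((div_le_div_iff_of_pos_right hN0).2 ?_) (norm_nonneg _)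
    refine IsUltrametricDist.norm_sum_le_of_forall_le_of_nonneg hρ0 fun i _ => ?_
    have e2 : x ^ i * y ^ (n - 1 - i) - 1 = (x ^ i - 1) * y ^ (n - 1 - i) + (y ^ (n - 1 - i) - 1) := by
      ring
    rw [e2]
    refine (IsUltrametricDist.norm_add_le_max _ _).trans (max_le ?_ (hpow y hy _))
    rw [norm_mul, norm_pow]
    exact (mul_le_of_le_one_right (norm_nonneg _)
      (pow_le_one₀ (norm_nonneg _) (hle1 y hy))).trans (hpow x hx i)
  have h1S : (1 : K) ∈ S := ⟨one_mem _, by simpa using hρ0⟩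
  have hT1 : ‖T 1 - 1‖ = ρ := by
    simp only [T, one_pow]
    rw [show (1 : K) - (1 - c) / n - 1 = (c - 1) / n by ring, norm_div]
  obtain ⟨w, hwS, hw⟩ := exists_fixed_point hSc (T := T) h1S (fun x hx => ⟨by
      exact sub_mem hx.1 (div_mem (sub_mem (pow_mem hx.1 n) hcR) (natCast_mem _ n)), by
      show ‖T x - 1‖ ≤ ρ
      rw [show T x - 1 = (T x - T 1) + (T 1 - 1) by ring]
      refine (IsUltrametricDist.norm_add_le_max _ _).trans (max_le ?_ hT1.le)
      exact (hlip x hx 1 h1S).trans ((mul_le_of_le_one_left (norm_nonneg _)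
        ((div_le_one hN0).2 hρN.le)).trans hx.2)⟩)
    (by positivity) ((div_lt_one hN0).2 hρN) hlip
  refine ⟨w, hwS.1, lt_of_le_of_lt hwS.2 hρ1, ?_⟩
  have h3 : (w ^ n - c) / n = 0 := by
    simp only [T] at hw
    linear_combination -hw
  rcases div_eq_zero_iff.1 h3 with h | h
  · exact sub_eq_zero.1 h
  · exact absurd h hN

end Fermat.Agent.Tate
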