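/-
At a prime of multiplicative reduction the curve is isomorphic to a Tate curve over the field of the
place, by a change of coordinates involving only a square root of a rational number fixed by
inertia and elements of the closure of the rationals.
-/
import Fermat.Agent.Tate.Place
import Fermat.Agent.Tate.RatClosure
import Fermat.Agent.Tate.Eval.Uniformisation
import Fermat.Agent.Tate.Defs
import Fermat.Agent.Mult.Inertia

set_option autoImplicit false

noncomputable section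

namespace Fermat.Agent.Tate

open WeierstrassCurve

local notation "Qbar" => AlgebraicClosure ℚ

theorem coeff_c₄_tateCurveSeries : PowerSeries.constantCoeff tateCurveSeries.c₄ = 1 := by
  have h : tateCurveSeries.c₄ = 1 - 48 * a4s := by
    simp only [tateCurveSeries, WeierstrassCurve.c₄, WeierstrassCurve.b₂, WeierstrassCurve.b₄]
    ring
  have h4 : PowerSeries.constantCoeff a4s = 0 := by
    rw [← PowerSeries.coeff_zero_eq_constantCoeff_apply]; exact coeff_a4s.1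
  rw [h, map_sub, map_mul, map_one, h4, mul_zero, sub_zero]

variable {K : Type} [NormedField K] [IsUltrametricDist K] [CompleteSpace K] [CharZero K]

theorem norm_sub_one_lt_iff_eq_one {x : K} (h : ‖x - 1‖ < 1) : ‖x‖ = 1 := by
  have e : x = (x - 1) + 1 := by ring
  rw [e, IsUltrametricDist.norm_add_eq_max_of_norm_ne_norm (by rw [norm_one]; exact h.ne),
    norm_one]
  exact max_eq_right h.le

theorem norm_c₄_tateCurve {q : Kˣ} (hq : ‖(q : K)‖ < 1) : ‖(tateCurve hq).c₄‖ = 1 := by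
  rw [tateCurve, map_c₄]
  refine norm_sub_one_lt_iff_eq_one ?_
  have h := norm_intEval_sub_le hq (tateCurveSeries.c₄ - 1) (N := 1) (fun n hn => by
    obtain rfl : n = 0 := by omega
    rw [PowerSeries.coeff_zero_eq_constantCoeff_apply, map_sub, coeff_c₄_tateCurveSeries, map_one,
      sub_self])
  rw [map_sub, map_one, pow_one] at h
  exact h.trans_lt hq

/-- A cubic inequality: if `m` is bounded by `1` and the leading coefficient is a unit then the
root is integral. -/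
theorem norm_le_one_of_monic_dominant {x : K} {k : ℕ} {c lead : K} (hlead : ‖lead‖ = 1)
    {rest : K} (hc : ‖c‖ ≤ 1) (hrest : 1 < ‖x‖ → ‖rest‖ ≤ ‖x‖ ^ k)
    (h : lead * x ^ (k + 1) + rest = c) : ‖x‖ ≤ 1 := by
  by_contra hx
  push Not at hx
  have h1 : ‖lead * x ^ (k + 1)‖ = ‖x‖ ^ (k + 1) := by rw [norm_mul, norm_pow, hlead, one_mul]
  have h2 : ‖x‖ ^ k < ‖x‖ ^ (k + 1) := pow_lt_pow_right₀ hx (by omega)
  have h3 : ‖c‖ = ‖x‖ ^ (k + 1) := by
    rw [← h, IsUltrametricDist.norm_add_eq_max_of_norm_ne_norm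
      (by rw [h1]; exact ((hrest hx).trans_lt h2).ne'), h1]
    exact max_eq_left ((hrest hx).trans h2.le)
  rw [h3] at hc
  exact absurd hc (not_le.2 (one_lt_pow₀ hx (by omega)))

theorem norm_add_le_of_le {a b : K} {C : ℝ} (ha : ‖a‖ ≤ C) (hb : ‖b‖ ≤ C) : ‖a + b‖ ≤ C :=
  (IsUltrametricDist.norm_add_le_max a b).trans (max_le ha hb)

theorem norm_sub_le_of_le {a b : K} {C : ℝ} (ha : ‖a‖ ≤ C) (hb : ‖b‖ ≤ C) : ‖a - b‖ ≤ C := by
  rw [sub_eq_add_neg]
  exact norm_add_le_of_le ha (by rwa [norm_neg])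

theorem norm_mul_pow_le {a x : K} {i k : ℕ} (ha : ‖a‖ ≤ 1) (hx : 1 ≤ ‖x‖) (hik : i ≤ k) :
    ‖a * x ^ i‖ ≤ ‖x‖ ^ k := by
  rw [norm_mul, norm_pow]
  exact (mul_le_of_le_one_left (by positivity) ha).trans (pow_le_pow_right₀ hx hik)

/-- The data of the normalisation. -/
structure Normalisation (W : WeierstrassCurve ℤ) {A : ValuationSubring Qbar} {q : ℕ}
    (F : PlaceField A q K) where
  qT : Kˣ
  norm_qT_lt : ‖(qT : K)‖ < 1
  qT_mem : (qT : K) ∈ ratClosure K
  norm_qT : ‖(qT : K)‖ = ‖(q : K)‖ ^ padicValInt q W.Δ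
  δ : Qbar
  isTateTwist : IsTateTwist A δ
  C : VariableChange K
  w : K
  w_mem : w ∈ ratClosure K
  u_eq : (C.u : K) = F.j δ * w
  norm_u : ‖(C.u : K)‖ = 1
  r_mem : C.r ∈ ratClosure K
  t_mem : C.t ∈ ratClosure K
  s_eq : C.s = ((C.u : K) - (W.a₁ : K)) / 2
  norm_r : ‖C.r‖ ≤ 1
  norm_s : ‖C.s‖ ≤ 1
  norm_t : ‖C.t‖ ≤ 1
  smul_eq : C • W.map (Int.castRingHom K) = tateCurve norm_qT_lt

theorem exists_normalisation (W : WeierstrassCurve ℤ) {q : ℕ} (hq : q.Prime) (hΔ : W.Δ ≠ 0)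
    (hqΔ : (q : ℤ) ∣ W.Δ) (hqc₄ : ¬ (q : ℤ) ∣ W.c₄) {A : ValuationSubring Qbar}
    (F : PlaceField A q K) : Nonempty (Normalisation W F) := by
  have hqp : Fact q.Prime := ⟨hq⟩
  set WK := W.map (Int.castRingHom K) with hWK
  have hint : ∀ n : ℤ, ‖(n : K)‖ ≤ 1 := fun n => IsUltrametricDist.norm_intCast_le_one K n
  have hWa : WK.a₁ = W.a₁ ∧ WK.a₂ = W.a₂ ∧ WK.a₃ = W.a₃ ∧ WK.a₄ = W.a₄ ∧ WK.a₆ = W.a₆ :=
    ⟨rfl, rfl, rfl, rfl, rfl⟩
  have hWc₄ : WK.c₄ = W.c₄ := by rw [hWK, map_c₄]; rfl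
  have hWΔ : WK.Δ = W.Δ := by rw [hWK, map_Δ]; rfl
  have hWc₆ : WK.c₆ = W.c₆ := by rw [hWK, map_c₆]; rfl
  have nc₄W : ‖WK.c₄‖ = 1 := by rw [hWc₄]; exact F.norm_intCast_eq_one hq hqc₄
  have c₄W0 : WK.c₄ ≠ 0 := norm_ne_zero_iff.1 (by rw [nc₄W]; norm_num)
  have nΔW : ‖WK.Δ‖ < 1 := by rw [hWΔ]; exact (F.norm_intCast_lt_one_iff hq _).2 hqΔ
  have ΔW0 : WK.Δ ≠ 0 := by rw [hWΔ]; exact Int.cast_ne_zero.2 hΔ
  -- the parameter
  set T := WK.Δ / WK.c₄ ^ 3 with hT
  have nT : ‖T‖ = ‖WK.Δ‖ := by rw [hT, norm_div, norm_pow, nc₄W, one_pow, div_one]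
  have T0 : T ≠ 0 := div_ne_zero ΔW0 (pow_ne_zero _ c₄W0)
  have TR : T ∈ ratClosure K := by
    rw [hT, hWΔ, hWc₄]
    exact div_mem (intCast_mem_ratClosure _) (pow_mem (intCast_mem_ratClosure _) 3)
  set h : PowerSeries ℤ := tateCurveSeries.Δ * PowerSeries.invOfUnit (tateCurveSeries.c₄ ^ 3) 1
    with hh
  have hcc : PowerSeries.constantCoeff (tateCurveSeries.c₄ ^ 3) = ((1 : ℤˣ) : ℤ) := by
    rw [map_pow, coeff_c₄_tateCurveSeries, one_pow, Units.val_one]
  have hhc : h * tateCurveSeries.c₄ ^ 3 = tateCurveSeries.Δ := by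
    rw [hh, mul_assoc, mul_comm (PowerSeries.invOfUnit _ _), PowerSeries.mul_invOfUnit _ _ hcc,
      mul_one]
  have hh0 : PowerSeries.coeff 0 h = 0 := by
    rw [hh, PowerSeries.coeff_mul, Finset.Nat.antidiagonal_zero, Finset.sum_singleton,
      coeff_Δ_tateCurveSeries.1, zero_mul]
  have hh1 : PowerSeries.coeff 1 h = 1 := by
    rw [hh, PowerSeries.coeff_mul, Finset.Nat.antidiagonal_succ, Finset.sum_cons,
      Finset.Nat.antidiagonal_zero, Finset.map_singleton, Finset.sum_singleton]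
    simp [coeff_Δ_tateCurveSeries.1, coeff_Δ_tateCurveSeries.2,
      PowerSeries.constantCoeff_invOfUnit]
  obtain ⟨x, hx1, hxR, hxn, hxe⟩ := exists_intEval_eq h hh0 hh1 (nT ▸ nΔW) T0 TR
  have hx0 : x ≠ 0 := by rw [← norm_ne_zero_iff, hxn, norm_ne_zero_iff]; exact T0
  set qT : Kˣ := Units.mk0 x hx0 with hqT
  have hqT1 : ‖(qT : K)‖ < 1 := hx1
  set E := tateCurve hqT1 with hE
  have nqT : ‖(qT : K)‖ = ‖(q : K)‖ ^ padicValInt q W.Δ := by
    show ‖x‖ = _
    rw [hxn, nT, hWΔ, F.norm_intCast_eq_pow hq hΔ]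
  have eΔ : E.Δ * WK.c₄ ^ 3 = WK.Δ * E.c₄ ^ 3 := by
    have e := congrArg (intEval hqT1) hhc
    rw [map_mul, map_pow] at e
    have e' : intEval hqT1 h = T := hxe
    rw [e'] at e
    have h1 : E.Δ = intEval hqT1 tateCurveSeries.Δ := map_Δ _ _
    have h2 : E.c₄ = intEval hqT1 tateCurveSeries.c₄ := map_c₄ _ _
    rw [h1, h2, ← e, hT]
    field_simp
  have nc₄E : ‖E.c₄‖ = 1 := norm_c₄_tateCurve hqT1
  have c₄E0 : E.c₄ ≠ 0 := norm_ne_zero_iff.1 (by rw [nc₄E]; norm_num)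
  have nc₆ : ∀ V : WeierstrassCurve K, ‖V.c₄‖ = 1 → ‖V.Δ‖ < 1 → ‖V.c₆‖ = 1 := by
    intro V hV hVd
    have h2 : V.c₆ ^ 2 = V.c₄ ^ 3 + -(((1728 : ℤ) : K) * V.Δ) := by
      push_cast
      linear_combination V.c_relation
    have hlt : ‖-(((1728 : ℤ) : K) * V.Δ)‖ < ‖V.c₄ ^ 3‖ := by
      rw [norm_neg, norm_pow, hV, one_pow, norm_mul]
      exact (mul_le_of_le_one_left (norm_nonneg _) (hint 1728)).trans_lt hVd
    have h3 : ‖V.c₆‖ ^ 2 = 1 := by
      rw [← norm_pow, h2, IsUltrametricDist.norm_add_eq_max_of_norm_ne_norm hlt.ne',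
        max_eq_left hlt.le, norm_pow, hV, one_pow]
    exact (pow_eq_one_iff_of_nonneg (norm_nonneg _) two_ne_zero).1 h3
  have nc₆W : ‖WK.c₆‖ = 1 := nc₆ WK nc₄W nΔW
  have nc₆E : ‖E.c₆‖ = 1 := nc₆ E nc₄E (by rw [hE, norm_tateCurve_Δ]; exact hqT1)
  have c₆W0 : WK.c₆ ≠ 0 := norm_ne_zero_iff.1 (by rw [nc₆W]; norm_num)
  have c₆E0 : E.c₆ ≠ 0 := norm_ne_zero_iff.1 (by rw [nc₆E]; norm_num)
  have ec₆ : WK.c₆ ^ 2 * E.c₄ ^ 3 = E.c₆ ^ 2 * WK.c₄ ^ 3 := by
    linear_combination 1728 * eΔ + E.c₄ ^ 3 * WK.c_relation - WK.c₄ ^ 3 * E.c_relation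
  set d := WK.c₆ * E.c₄ / (WK.c₄ * E.c₆) with hd
  have nd : ‖d‖ = 1 := by rw [hd, norm_div, norm_mul, norm_mul, nc₆W, nc₄E, nc₄W, nc₆E]; norm_num
  have d0 : d ≠ 0 := norm_ne_zero_iff.1 (by rw [nd]; norm_num)
  have hd2 : d ^ 2 * E.c₄ = WK.c₄ := by
    rw [hd]
    field_simp
    linear_combination ec₆
  have hd3 : d ^ 3 * E.c₆ = WK.c₆ := by
    have : d * (WK.c₄ * E.c₆) = WK.c₆ * E.c₄ := by rw [hd, div_mul_cancel₀]; exact mul_ne_zero c₄W0 c₆E0
    refine mul_left_cancel₀ c₄E0 ?_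
    linear_combination this + d * E.c₆ * hd2
  have dR : d ∈ ratClosure K := by
    have hE4 : E.c₄ ∈ ratClosure K := by
      rw [hE, tateCurve, map_c₄]; exact intEval_mem_ratClosure hqT1 hxR _
    have hE6 : E.c₆ ∈ ratClosure K := by
      rw [hE, tateCurve, map_c₆]; exact intEval_mem_ratClosure hqT1 hxR _
    rw [hd, hWc₆, hWc₄]
    exact div_mem (mul_mem (intCast_mem_ratClosure _) hE4) (mul_mem (intCast_mem_ratClosure _) hE6)
  -- its square root
  have h2pos : 0 < ‖((2 : ℕ) : K)‖ := norm_pos_iff.2 (Nat.cast_ne_zero.2 two_ne_zero)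
  obtain ⟨d₁, hd₁⟩ := exists_ratCast_near dR (ε := ‖((2 : ℕ) : K)‖ ^ 2) (by positivity)
  have h2le : ‖((2 : ℕ) : K)‖ ^ 2 ≤ 1 :=
    pow_le_one₀ (norm_nonneg _) (IsUltrametricDist.norm_natCast_le_one K 2)
  have nd₁ : ‖(d₁ : K)‖ = 1 := by
    have e : (d₁ : K) = ((d₁ : K) - d) + d := by ring
    rw [e, IsUltrametricDist.norm_add_eq_max_of_norm_ne_norm
      (by rw [nd]; exact (hd₁.trans_le h2le).ne), nd]
    exact max_eq_right (hd₁.trans_le h2le).le
  have d₁0 : (d₁ : K) ≠ 0 := norm_ne_zero_iff.1 (by rw [nd₁]; norm_num)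
  obtain ⟨w, wR, hw1, hw⟩ := exists_pow_eq (K := K) two_ne_zero
    (div_mem dR (ratCast_mem_ratClosure d₁)) (by
      rw [div_sub_one d₁0, norm_div, nd₁, div_one, norm_sub_rev]
      exact hd₁)
  have nw : ‖w‖ = 1 := norm_sub_one_lt_iff_eq_one hw1
  obtain ⟨δ, hδ⟩ := IsAlgClosed.exists_pow_nat_eq (d₁ : Qbar) two_pos
  have hjδ : F.j δ ^ 2 = (d₁ : K) := by rw [← map_pow, hδ, map_ratCast]
  have nδ : ‖F.j δ‖ = 1 :=
    (pow_eq_one_iff_of_nonneg (norm_nonneg _) two_ne_zero).1 (by rw [← norm_pow, hjδ, nd₁])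
  set u := F.j δ * w with hu
  have nu : ‖u‖ = 1 := by rw [hu, norm_mul, nδ, nw, one_mul]
  have u0 : u ≠ 0 := norm_ne_zero_iff.1 (by rw [nu]; norm_num)
  have hu2 : u ^ 2 = d := by rw [hu, mul_pow, hjδ, hw]; field_simp
  set r := (d - WK.b₂) / 12 with hr
  set s := (u - (W.a₁ : K)) / 2 with hs
  set t := -(WK.a₃ + r * WK.a₁) / 2 with ht
  set C : VariableChange K := ⟨Units.mk0 u u0, r, s, t⟩ with hC
  have hb₂ : WK.b₂ = (W.a₁ : K) ^ 2 + 4 * W.a₂ := rfl
  have e1 : (C • WK).a₁ = 1 := by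
    rw [variableChange_a₁]
    simp only [hC, hs, hWa.1, Units.val_inv_eq_inv_val, Units.val_mk0]
    field_simp
    ring
  have e2 : (C • WK).a₂ = 0 := by
    rw [variableChange_a₂]
    simp only [hC, hs, hr, hWa.1, hWa.2.1, hb₂, Units.val_inv_eq_inv_val, Units.val_mk0]
    rw [mul_eq_zero]
    right
    field_simp
    linear_combination (-12 : K) * hu2
  have e3 : (C • WK).a₃ = 0 := by
    rw [variableChange_a₃]
    simp only [hC, ht]
    rw [mul_eq_zero]
    right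
    ring
  have ec4 : (C • WK).c₄ = E.c₄ := by
    rw [variableChange_c₄, Units.val_inv_eq_inv_val]
    simp only [hC, Units.val_mk0]
    rw [← hd2, ← hu2]
    field_simp
  have ec6 : (C • WK).c₆ = E.c₆ := by
    rw [variableChange_c₆, Units.val_inv_eq_inv_val]
    simp only [hC, Units.val_mk0]
    rw [← hd3, ← hu2]
    field_simp
  have e4 : (C • WK).a₄ = E.a₄ := by
    have h := ec4
    simp only [WeierstrassCurve.c₄, WeierstrassCurve.b₂, WeierstrassCurve.b₄, e1, e2, e3,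
      hE, tateCurve_a₁, tateCurve_a₂, tateCurve_a₃, tateCurve_a₄] at h
    rw [hE, tateCurve_a₄]
    linear_combination (-1 / 48 : K) * h
  have e6 : (C • WK).a₆ = E.a₆ := by
    have h := ec6
    simp only [WeierstrassCurve.c₆, WeierstrassCurve.b₂, WeierstrassCurve.b₄, WeierstrassCurve.b₆,
      e1, e2, e3, hE, tateCurve_a₁, tateCurve_a₂, tateCurve_a₃, tateCurve_a₄, tateCurve_a₆,
      e4] at h
    rw [hE, tateCurve_a₆]
    linear_combination (-1 / 864 : K) * h
  have hsmul : C • WK = E := by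
    ext
    · rw [e1, hE, tateCurve_a₁]
    · rw [e2, hE, tateCurve_a₂]
    · rw [e3, hE, tateCurve_a₃]
    · exact e4
    · exact e6
  -- integrality
  have hu1 : ‖(C.u : K)‖ = 1 := nu
  have nE4 : ‖E.a₄‖ ≤ 1 := by
    simpa [hE, a4Val] using norm_intEval_sub_le hqT1 a4s (N := 0) (fun n hn => by omega)
  have nE6 : ‖E.a₆‖ ≤ 1 := by
    simpa [hE, a6Val] using norm_intEval_sub_le hqT1 a6s (N := 0) (fun n hn => by omega)
  have nr : ‖r‖ ≤ 1 := by
    have b4 : WK.b₄ = ((W.b₄ : ℤ) : K) := by rw [hWK, map_b₄]; rfl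
    have b6 : WK.b₆ = ((W.b₆ : ℤ) : K) := by rw [hWK, map_b₆]; rfl
    have b8 : WK.b₈ = ((W.b₈ : ℤ) : K) := by rw [hWK, map_b₈]; rfl
    have b2 : WK.b₂ = ((W.b₂ : ℤ) : K) := by rw [hWK, map_b₂]; rfl
    have hn : ∀ a : ℤ, ∀ x : K, ‖x‖ ≤ 1 → ‖(a : K) * x‖ ≤ 1 := fun a x hx => by
      rw [norm_mul]; exact mul_le_one₀ (hint a) (norm_nonneg _) hx
    by_cases h2 : q = 2
    · -- leading coefficient `3`
      have key := congrArg WeierstrassCurve.b₈ hsmul
      rw [variableChange_b₈, Units.val_inv_eq_inv_val, inv_pow, inv_mul_eq_iff_eq_mul₀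
        (pow_ne_zero _ (Units.ne_zero C.u)), b2, b4, b6, b8] at key
      refine norm_le_one_of_monic_dominant (k := 3) (lead := (3 : ℤ))
        (c := (C.u : K) ^ 8 * E.b₈ - (W.b₈ : ℤ))
        (rest := ((3 * W.b₆ : ℤ) : K) * r ^ 1 + ((3 * W.b₄ : ℤ) : K) * r ^ 2
          + ((W.b₂ : ℤ) : K) * r ^ 3)
        (F.norm_intCast_eq_one hq (by subst h2; decide)) ?_ (fun hr1 => ?_) ?_
      · refine norm_sub_le_of_le ?_ (hint _)
        rw [norm_mul, norm_pow, hu1, one_pow, one_mul]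
        simp only [WeierstrassCurve.b₈, hE, tateCurve_a₁, tateCurve_a₂, tateCurve_a₃,
          tateCurve_a₄, tateCurve_a₆, one_pow, one_mul, mul_zero, zero_mul, sub_zero, add_zero,
          zero_pow two_ne_zero]
        refine norm_sub_le_of_le (by simpa [hE] using nE6) ?_
        rw [norm_pow]
        exact pow_le_one₀ (norm_nonneg _) (by simpa [hE] using nE4)
      · exact norm_add_le_of_le (norm_add_le_of_le (norm_mul_pow_le (hint _) hr1.le (by omega))
          (norm_mul_pow_le (hint _) hr1.le (by omega))) (norm_mul_pow_le (hint _) hr1.le le_rfl)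
      · simp only [hC] at key ⊢
        push_cast
        linear_combination key
    · -- leading coefficient `4`
      have key := congrArg WeierstrassCurve.b₆ hsmul
      rw [variableChange_b₆, Units.val_inv_eq_inv_val, inv_pow, inv_mul_eq_iff_eq_mul₀
        (pow_ne_zero _ (Units.ne_zero C.u)), b2, b4, b6] at key
      refine norm_le_one_of_monic_dominant (k := 2) (lead := (4 : ℤ))
        (c := (C.u : K) ^ 6 * E.b₆ - (W.b₆ : ℤ))
        (rest := ((2 * W.b₄ : ℤ) : K) * r ^ 1 + ((W.b₂ : ℤ) : K) * r ^ 2)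
        (F.norm_intCast_eq_one hq ?_) ?_ (fun hr1 => ?_) ?_
      · intro h4
        have : (q : ℤ) ∣ 2 := by
          rcases (Nat.prime_iff_prime_int.1 hq).dvd_or_dvd (show (q : ℤ) ∣ 2 * 2 by norm_num; exact h4)
            with h | h <;> exact h
        have := Int.le_of_dvd two_pos this
        have := hq.two_le
        omega
      · refine norm_sub_le_of_le ?_ (hint _)
        rw [norm_mul, norm_pow, hu1, one_pow, one_mul]
        simp only [WeierstrassCurve.b₆, hE, tateCurve_a₃, tateCurve_a₆, zero_pow two_ne_zero,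
          zero_add]
        rw [norm_mul]
        exact mul_le_one₀ (by exact_mod_cast hint 4) (norm_nonneg _) (by simpa [hE] using nE6)
      · exact norm_add_le_of_le (norm_mul_pow_le (hint _) hr1.le (by omega))
          (norm_mul_pow_le (hint _) hr1.le le_rfl)
      · simp only [hC] at key ⊢
        push_cast
        linear_combination key
  have ns : ‖s‖ ≤ 1 := by
    refine norm_le_one_of_monic_dominant (k := 1) (lead := (1 : K)) (x := s)
      (c := (W.a₂ : K) + (3 : ℤ) * r) (rest := (W.a₁ : K) * s ^ 1) norm_one ?_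
      (fun hs1 => norm_mul_pow_le (hint _) hs1.le le_rfl) ?_
    · refine norm_add_le_of_le (hint _) ?_
      rw [norm_mul]
      exact mul_le_one₀ (hint 3) (norm_nonneg _) nr
    · have h := e2
      rw [variableChange_a₂, mul_eq_zero, or_iff_right (pow_ne_zero _ (Units.ne_zero _))] at h
      simp only [hC, hWa.1, hWa.2.1] at h
      push_cast
      linear_combination -h
  have nt : ‖t‖ ≤ 1 := by
    have key := congrArg WeierstrassCurve.a₆ hsmul
    rw [variableChange_a₆, Units.val_inv_eq_inv_val, inv_pow, inv_mul_eq_iff_eq_mul₀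
      (pow_ne_zero _ (Units.ne_zero C.u))] at key
    simp only [hC, Units.val_mk0, hWa.1, hWa.2.1, hWa.2.2.1, hWa.2.2.2.1, hWa.2.2.2.2] at key
    refine norm_le_one_of_monic_dominant (k := 1) (lead := (1 : K)) (x := t)
      (c := (W.a₆ : K) + r * (W.a₄ : K) + r ^ 2 * (W.a₂ : K) + r ^ 3 - u ^ 6 * E.a₆)
      (rest := ((W.a₃ : K) + r * (W.a₁ : K)) * t ^ 1) norm_one ?_
      (fun ht1 => norm_mul_pow_le (norm_add_le_of_le (hint _)
        (by rw [norm_mul]; exact mul_le_one₀ nr (norm_nonneg _) (hint _))) ht1.le le_rfl) ?_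
    · refine norm_sub_le_of_le (norm_add_le_of_le (norm_add_le_of_le (norm_add_le_of_le
        (hint _) ?_) ?_) ?_) ?_
      · rw [norm_mul]; exact mul_le_one₀ nr (norm_nonneg _) (hint _)
      · rw [norm_mul, norm_pow]
        exact mul_le_one₀ (pow_le_one₀ (norm_nonneg _) nr) (norm_nonneg _) (hint _)
      · rw [norm_pow]; exact pow_le_one₀ (norm_nonneg _) nr
      · rw [norm_mul, norm_pow, nu, one_pow, one_mul]; exact nE6
    · linear_combination -key
  -- the twist is unramified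
  have δ0 : δ ≠ 0 := fun h => by rw [h, map_zero, norm_zero] at nδ; exact zero_ne_one nδ
  have htw : IsTateTwist A δ := by
    refine ⟨δ0, ⟨d₁, hδ⟩, fun σ hσ => ?_⟩
    by_contra hne
    have hneg : σ δ = -δ := by
      have : σ δ ^ 2 = δ ^ 2 := by rw [← map_pow, hδ, map_ratCast]
      exact (sq_eq_sq_iff_eq_or_eq_neg.1 this).resolve_left hne
    obtain ⟨w₀, hw₀⟩ := exists_ratCast_near wR (ε := ‖((2 : ℕ) : K)‖) h2pos
    have hw₀1 : ‖(w₀ : K) - w‖ < 1 :=
      hw₀.trans_le (IsUltrametricDist.norm_natCast_le_one K 2)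
    set s₀ : Qbar := (δ * (w₀ : Qbar) - (W.a₁ : Qbar)) / 2 with hs₀
    have hjs : F.j s₀ = s + F.j δ * ((w₀ : K) - w) / 2 := by
      simp only [hs₀, hs, hu, map_div₀, map_sub, map_mul, map_ratCast, map_intCast, map_ofNat]
      ring
    have hs₀A : s₀ ∈ A := by
      rw [← F.norm_le_one_iff, hjs]
      refine norm_add_le_of_le ns ?_
      rw [norm_div, norm_mul, nδ, one_mul, div_le_one (by exact_mod_cast h2pos)]
      exact_mod_cast hw₀.le
    have hnu := Mult.sub_mem_nonunits_of_mem_inertia hσ hs₀A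
    rw [← F.norm_lt_one_iff] at hnu
    have e : σ s₀ - s₀ = -(δ * (w₀ : Qbar)) := by
      simp only [hs₀, map_div₀, map_sub, map_mul, map_ratCast, map_intCast, map_ofNat, hneg]
      ring
    replace hnu : ‖F.j (-(δ * (w₀ : Qbar)))‖ < 1 :=
      lt_of_eq_of_lt (congrArg (fun z => ‖F.j z‖) e.symm) hnu
    rw [map_neg, norm_neg, map_mul, map_ratCast, norm_mul, nδ, one_mul] at hnu
    have : ‖(w₀ : K)‖ = 1 := by
      have e' : (w₀ : K) = ((w₀ : K) - w) + w := by ring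
      rw [e', IsUltrametricDist.norm_add_eq_max_of_norm_ne_norm (by rw [nw]; exact hw₀1.ne), nw]
      exact max_eq_right hw₀1.le
    rw [this] at hnu
    exact lt_irrefl _ hnu
  have hrR : r ∈ ratClosure K := by
    rw [hr, hb₂]
    refine div_mem (sub_mem dR (add_mem (pow_mem (intCast_mem_ratClosure _) 2)
      (mul_mem ?_ (intCast_mem_ratClosure _)))) ?_
    · exact_mod_cast intCast_mem_ratClosure (K := K) 4
    · exact_mod_cast intCast_mem_ratClosure (K := K) 12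
  exact ⟨{
    qT := qT
    norm_qT_lt := hqT1
    qT_mem := hxR
    norm_qT := nqT
    δ := δ
    isTateTwist := htw
    C := C
    w := w
    w_mem := wR
    u_eq := rfl
    norm_u := hu1
    r_mem := hrR
    t_mem := by
      show t ∈ ratClosure K
      rw [ht, hWa.1, hWa.2.2.1]
      exact div_mem (neg_mem (add_mem (intCast_mem_ratClosure _)
        (mul_mem hrR (intCast_mem_ratClosure _))))
        (by exact_mod_cast intCast_mem_ratClosure (K := K) 2)
    s_eq := rfl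
    norm_r := nr
    norm_s := ns
    norm_t := nt
    smul_eq := hsmul }⟩

end Fermat.Agent.Tate
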