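/-
The uniformisation of a multiplicative curve over the field of the place: equivariance and the
criterion for the identity component.
-/
import Fermat.Agent.Tate.Normalise
import Fermat.Agent.Small13.VarChange
import Fermat.Prelude.Def_EllipticCurve_ZeroComponentAt

set_option autoImplicit false

noncomputable section

namespace Fermat.Agent.Tate

open WeierstrassCurve AddMonoidAlgebra

local notation "Qbar" => AlgebraicClosure ℚ

section equivariance

variable {K : Type} [NormedField K] [IsUltrametricDist K] [CompleteSpace K]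
variable {τ : K →+* K} {q : K} {u : Kˣ}

theorem map_evChar (τ : K →+* K) (u : Kˣ) (f : LP) :
    τ (evChar u f) = evChar (Units.map τ.toMonoidHom u) f := by
  induction f using AddMonoidAlgebra.induction_linear with
  | zero => simp only [map_zero]
  | add a b ha hb => simp only [map_add, ha, hb]
  | single n c =>
    rw [evChar_single, evChar_single, map_mul, map_intCast, map_zpow₀]
    rfl

theorem map_tateX (hτ : Continuous τ) (hq : τ q = q) (h : InAnn q u) :
    τ (tateX q u) = tateX q (Units.map τ.toMonoidHom u) := by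
  rw [tateX, tateX, map_add, tailXVal, tailXVal]
  congr 1
  · simp only [wVal, map_inv₀, map_sub, map_add, map_ofNat]
    rfl
  · rw [Summable.map_tsum
      ((tailX_mem h : _ ∈ convSeries q).congr fun n => by rw [PowerSeries.coeff_map]) τ hτ]
    refine tsum_congr fun n => ?_
    rw [map_mul, map_pow, hq, map_evChar]

theorem map_tateZ (hτ : Continuous τ) (hq : τ q = q) (h : InAnn q u) :
    τ (tateZ q u) = tateZ q (Units.map τ.toMonoidHom u) := by
  rw [tateZ, tateZ, map_add, tailZVal, tailZVal]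
  congr 1
  · simp only [wVal, dVal, map_div₀, map_neg, map_pow, map_sub, map_add, map_inv₀, map_ofNat]
    rfl
  · rw [Summable.map_tsum
      ((tailZ_mem h : _ ∈ convSeries q).congr fun n => by rw [PowerSeries.coeff_map]) τ hτ]
    refine tsum_congr fun n => ?_
    rw [map_mul, map_pow, hq, map_evChar]

end equivariance

/-- Transport of points along an equality of curves. -/
def congrPoints {F : Type*} [Field F] [DecidableEq F] {V V' : WeierstrassCurve F} (h : V = V') :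
    V.toAffine.Point →+ V'.toAffine.Point where
  toFun P := h ▸ P
  map_zero' := by subst h; rfl
  map_add' P Q := by subst h; rfl

theorem congrPoints_some {F : Type*} [Field F] [DecidableEq F] {V V' : WeierstrassCurve F}
    (h : V = V') {x y : F} (hP : V.toAffine.Nonsingular x y) :
    congrPoints h (.some x y hP) = .some x y (h ▸ hP) := by
  subst h; rfl

theorem congrPoints_injective {F : Type*} [Field F] [DecidableEq F] {V V' : WeierstrassCurve F}
    (h : V = V') : Function.Injective (congrPoints h) := by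
  subst h
  exact fun P Q e => e

variable {K : Type} [NormedField K] [IsUltrametricDist K] [CompleteSpace K] [CharZero K]
variable {W : WeierstrassCurve ℤ} {A : ValuationSubring Qbar} {q : ℕ} {F : PlaceField A q K}

namespace Normalisation

variable (N : Normalisation W F)

/-- The curve over `K`. -/
abbrev curve (W : WeierstrassCurve ℤ) (K : Type) [CommRing K] : WeierstrassCurve K :=
  W.map (Int.castRingHom K)

theorem Δ_ne_zero (N : Normalisation W F) : (curve W K).Δ ≠ 0 := by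
  intro h
  have h' := tateCurve_Δ_ne_zero N.norm_qT_lt
  rw [← N.smul_eq, variableChange_Δ, h, mul_zero] at h'
  exact h' rfl

/-- The `x`-coordinate on `W` of the point at `v` in the annulus. -/
def px (v : Kˣ) : K := Small13.vcX N.C (tateX (N.qT : K) v)

/-- The `y`-coordinate on `W` of the point at `v` in the annulus. -/
def py (v : Kˣ) : K :=
  Small13.vcY N.C (tateX (N.qT : K) v) ((tateZ (N.qT : K) v - tateX (N.qT : K) v) / 2)

theorem nonsingular [DecidableEq K] {v : Kˣ} (hv : InAnn (N.qT : K) v) (hv1 : v ≠ 1) :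
    (curve W K).toAffine.Nonsingular (N.px v) (N.py v) :=
  Small13.vc_nonsingular N.Δ_ne_zero N.C (N.smul_eq ▸ tate_nonsingular N.norm_qT_lt hv hv1)

variable [DecidableEq K]

/-- The uniformisation of `W` over `K`. -/
def unif : Additive Kˣ →+ (curve W K).toAffine.Point :=
  (Small13.vcHom N.Δ_ne_zero N.C).comp ((congrPoints N.smul_eq.symm).comp (tateHom N.norm_qT_lt))

theorem unif_eq_zero_iff (v : Kˣ) : N.unif (Additive.ofMul v) = 0 ↔ ∃ k : ℤ, v = N.qT ^ k := by
  rw [← tateMap_eq_zero_iff N.norm_qT_lt v]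
  show Small13.vcHom N.Δ_ne_zero N.C (congrPoints N.smul_eq.symm (tateMap N.norm_qT_lt v)) = 0 ↔ _
  rw [map_eq_zero_iff _ (Small13.vcHom_injective _ _),
    map_eq_zero_iff _ (congrPoints_injective _)]

theorem unif_eq_zero_iff_reduce (v : Kˣ) :
    N.unif (Additive.ofMul v) = 0 ↔ qReduce N.norm_qT_lt v = 1 := by
  rw [unif_eq_zero_iff]
  refine ⟨?_, fun h => ⟨-qIndex N.norm_qT_lt v, ?_⟩⟩
  · rintro ⟨k, rfl⟩
    exact qReduce_eq _ (k := -k) (by rw [← zpow_add, add_neg_cancel, zpow_zero])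
      (by simpa using N.norm_qT_lt) (by simp)
  · rw [zpow_neg]
    exact eq_inv_of_mul_eq_one_left h

theorem unif_some {v : Kˣ} (h1 : qReduce N.norm_qT_lt v ≠ 1) :
    N.unif (Additive.ofMul v) = .some (N.px (qReduce N.norm_qT_lt v))
      (N.py (qReduce N.norm_qT_lt v)) (N.nonsingular (qReduce_inAnn _ v) h1) := by
  show Small13.vcHom N.Δ_ne_zero N.C (congrPoints N.smul_eq.symm (tateMap N.norm_qT_lt v)) = _
  rw [tateMap, annPoint_of_ne _ (qReduce_inAnn _ v) h1, congrPoints_some, Small13.vcHom_some]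
  rfl

omit [DecidableEq K] in
theorem negY_py (v : Kˣ) :
    (curve W K).toAffine.negY (N.px v) (N.py v) =
      -(N.C.u : K) ^ 3 * ((tateZ (N.qT : K) v - tateX (N.qT : K) v) / 2)
        + (N.C.u : K) ^ 2 * ((-(N.C.u : K) - (W.a₁ : K)) / 2) * tateX (N.qT : K) v + N.C.t := by
  have h3 : (N.C • curve W K).a₃ = 0 := by rw [N.smul_eq, tateCurve_a₃]
  rw [variableChange_a₃, mul_eq_zero, or_iff_right (pow_ne_zero _ (Units.ne_zero _))] at h3
  have ea1 : (curve W K).a₁ = (W.a₁ : K) := rfl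
  simp only [Affine.negY, px, py, Small13.vcX, Small13.vcY, N.s_eq, ea1] at h3 ⊢
  linear_combination -h3

omit [DecidableEq K] in
theorem map_jδ {τ : K →+* K} {σ : Qbar ≃ₐ[ℚ] Qbar} (hjτ : ∀ x, τ (F.j x) = F.j (σ x)) :
    τ (F.j N.δ) = (twistSign N.δ σ : K) * F.j N.δ := by
  exact (hjτ N.δ).trans ((congrArg F.j (N.isTateTwist.apply_eq σ)).trans
    (by rw [map_mul, map_intCast]))

/-- The action of the decomposition group on the uniformisation. -/
theorem unif_map {τ : K →+* K} (hτc : Continuous τ) (hτn : ∀ x, ‖τ x‖ = ‖x‖)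
    {σ : Qbar ≃ₐ[ℚ] Qbar} (hjτ : ∀ x, τ (F.j x) = F.j (σ x)) {v : Kˣ} {x y : K}
    {h : (curve W K).toAffine.Nonsingular x y}
    (hv : N.unif (Additive.ofMul v) = .some x y h) :
    ∃ h', twistSign N.δ σ • N.unif (Additive.ofMul (Units.map τ.toMonoidHom v)) =
      .some (τ x) (τ y) h' := by
  set a := qReduce N.norm_qT_lt v with ha
  have ha1 : a ≠ 1 := by
    intro h1
    rw [(N.unif_eq_zero_iff_reduce v).2 h1] at hv
    exact Affine.Point.some_ne_zero h hv.symm
  rw [N.unif_some ha1, Affine.Point.some.injEq] at hv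
  obtain ⟨rfl, rfl⟩ := hv
  have hqT : τ (N.qT : K) = N.qT := apply_eq_of_mem_ratClosure hτc N.qT_mem
  have hqTu : Units.map τ.toMonoidHom N.qT = N.qT := Units.ext hqT
  set b := Units.map τ.toMonoidHom a with hb
  have hbn : ‖(b : K)‖ = ‖(a : K)‖ := hτn _
  have hred : qReduce N.norm_qT_lt (Units.map τ.toMonoidHom v) = b :=
    qReduce_eq _ (k := qIndex N.norm_qT_lt v)
      (by rw [hb, ha, qReduce, map_mul, map_zpow, hqTu])
      (hbn ▸ (qReduce_spec _ v).1) (hbn ▸ (qReduce_spec _ v).2)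
  have hb1 : b ≠ 1 := fun h1 => ha1 (Units.map_injective (f := τ.toMonoidHom) τ.injective
    (by rw [map_one]; exact h1))
  have hA : InAnn (N.qT : K) a := qReduce_inAnn _ v
  have hu : τ (N.C.u : K) = (twistSign N.δ σ : K) * (N.C.u : K) := by
    rw [N.u_eq, map_mul, N.map_jδ hjτ, apply_eq_of_mem_ratClosure hτc N.w_mem, mul_assoc]
  have hr : τ N.C.r = N.C.r := apply_eq_of_mem_ratClosure hτc N.r_mem
  have ht : τ N.C.t = N.C.t := apply_eq_of_mem_ratClosure hτc N.t_mem
  have hs : τ N.C.s = ((twistSign N.δ σ : K) * (N.C.u : K) - (W.a₁ : K)) / 2 := by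
    rw [N.s_eq, map_div₀, map_sub, hu, map_intCast, map_ofNat]
  have hX := map_tateX hτc hqT hA
  have hZ := map_tateZ hτc hqT hA
  have hpx : τ (N.px a) = N.px b := by
    simp only [px, Small13.vcX, map_add, map_mul, map_pow, hu, hr, hX]
    rw [mul_pow, show ((twistSign N.δ σ : K)) ^ 2 = 1 by
      rw [pow_two, ← Int.cast_mul, twistSign_mul_self, Int.cast_one], one_mul]
  rcases twistSign_eq_or N.δ σ with hψ | hψ
  · have hpy : τ (N.py a) = N.py b := by
      rw [hψ, Int.cast_one, one_mul] at hu hs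
      rw [← N.s_eq] at hs
      simp only [py, Small13.vcY, map_add, map_mul, map_pow, map_div₀, map_sub, map_ofNat, hu, hs,
        ht, hX, hZ]
      rfl
    have hb1' : qReduce N.norm_qT_lt (Units.map τ.toMonoidHom v) ≠ 1 := by rw [hred]; exact hb1
    refine ⟨hpx ▸ hpy ▸ N.nonsingular (hred ▸ qReduce_inAnn _ _) hb1, ?_⟩
    rw [hψ, one_zsmul, N.unif_some hb1', Affine.Point.some.injEq, hred]
    exact ⟨hpx.symm, hpy.symm⟩
  · have hpy : τ (N.py a) = (curve W K).toAffine.negY (N.px b) (N.py b) := by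
      rw [hψ, Int.cast_neg, Int.cast_one, neg_one_mul] at hu hs
      rw [negY_py]
      simp only [py, Small13.vcY, map_add, map_mul, map_pow, map_div₀, map_sub, map_ofNat, hu, hs,
        ht, hX, hZ]
      rw [← hb]
      ring
    have hb1' : qReduce N.norm_qT_lt (Units.map τ.toMonoidHom v) ≠ 1 := by rw [hred]; exact hb1
    refine ⟨hpx ▸ hpy ▸ (Affine.nonsingular_neg _ _).2
      (N.nonsingular (hred ▸ qReduce_inAnn _ _) hb1), ?_⟩
    rw [hψ, neg_one_zsmul, N.unif_some hb1', Affine.Point.neg_some, Affine.Point.some.injEq, hred]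
    exact ⟨hpx.symm, hpy.symm⟩

end Normalisation

/-- `y² + x y = x³ + a₄ x + a₆` is singular mod `𝔪` exactly where `x ∈ 𝔪`. -/
theorem node_criterion {X Y a₄ a₆ : K} (h4 : ‖a₄‖ < 1) (h6 : ‖a₆‖ < 1) (hX : ‖X‖ ≤ 1)
    (heq : Y ^ 2 + X * Y = X ^ 3 + a₄ * X + a₆) :
    ‖Y‖ ≤ 1 ∧ ((‖2 * Y + X‖ < 1 ∧ ‖Y - 3 * X ^ 2 - a₄‖ < 1) ↔ ‖X‖ < 1) := by
  have hsum : ∀ {a b : K}, ‖a‖ < 1 → ‖b‖ < 1 → ‖a + b‖ < 1 := fun ha hb =>
    (IsUltrametricDist.norm_add_le_max _ _).trans_lt (max_lt ha hb)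
  have hmul : ∀ {a b : K}, ‖a‖ ≤ 1 → ‖b‖ < 1 → ‖a * b‖ < 1 := fun ha hb => by
    rw [norm_mul]
    exact lt_of_le_of_lt (mul_le_of_le_one_left (norm_nonneg _) ha) hb
  have hn : ∀ m : ℕ, ‖(m : K)‖ ≤ 1 := IsUltrametricDist.norm_natCast_le_one K
  have h4X : ‖a₄ * X + a₆‖ < 1 := hsum (by rw [mul_comm]; exact hmul hX h4) h6
  have hbig : 1 < ‖Y‖ ∨ (‖X‖ < 1 ∧ 1 ≤ ‖Y‖) → ‖X ^ 3 + a₄ * X + a₆‖ = ‖Y‖ ^ 2 := by
    intro h
    have hXY : ‖X‖ < ‖Y‖ := by rcases h with h | ⟨h1, h2⟩ <;> linarith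
    rw [← heq, show Y ^ 2 + X * Y = Y * (Y + X) by ring, norm_mul,
      IsUltrametricDist.norm_add_eq_max_of_norm_ne_norm hXY.ne', max_eq_left hXY.le, pow_two]
  have hY : ‖Y‖ ≤ 1 := by
    by_contra h
    push Not at h
    have h2 := hbig (Or.inl h)
    have h3 : ‖X ^ 3 + a₄ * X + a₆‖ ≤ 1 := by
      rw [add_assoc]
      exact norm_add_le_of_le (by rw [norm_pow]; exact pow_le_one₀ (norm_nonneg _) hX) h4X.le
    nlinarith
  refine ⟨hY, fun ⟨hA, hB⟩ => ?_, fun hX1 => ?_⟩
  · have hB0 : ‖Y - 3 * X ^ 2‖ < 1 := by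
      rw [show Y - 3 * X ^ 2 = (Y - 3 * X ^ 2 - a₄) + a₄ by ring]
      exact hsum hB h4
    have hF : ‖Y ^ 2 + X * Y - X ^ 3‖ < 1 := by
      rw [show Y ^ 2 + X * Y - X ^ 3 = a₄ * X + a₆ by linear_combination heq]
      exact h4X
    have e : X ^ 3 = -(((3 : ℕ) : K) * X ^ 2) * (2 * Y + X)
        + (((6 : ℕ) : K) * X ^ 2) * (Y - 3 * X ^ 2)
        + (((2 : ℕ) : K) * (Y ^ 2 + X * Y - X ^ 3)
          + -(((2 : ℕ) : K) * (Y + ((3 : ℕ) : K) * X ^ 2 + X)) * (Y - 3 * X ^ 2)) := by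
      push_cast; ring
    have hX2 : ∀ m : ℕ, ‖(m : K) * X ^ 2‖ ≤ 1 := fun m => by
      rw [norm_mul, norm_pow]
      exact mul_le_one₀ (hn m) (by positivity) (pow_le_one₀ (norm_nonneg _) hX)
    have : ‖X ^ 3‖ < 1 := by
      rw [e]
      refine hsum (hsum (hmul (by rw [norm_neg]; exact hX2 3) hA) (hmul (hX2 6) hB0))
        (hsum (hmul (hn 2) hF) (hmul ?_ hB0))
      rw [norm_neg, norm_mul]
      exact mul_le_one₀ (hn 2) (norm_nonneg _)
        (norm_add_le_of_le (norm_add_le_of_le hY (hX2 3)) hX)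
    by_contra h
    rw [norm_pow] at this
    exact absurd this (not_lt.2 (one_le_pow₀ (not_lt.1 h)))
  · have hY1 : ‖Y‖ < 1 := by
      by_contra h
      push Not at h
      have h2 := hbig (Or.inr ⟨hX1, h⟩)
      have h3 : ‖X ^ 3 + a₄ * X + a₆‖ < 1 := by
        rw [add_assoc]
        exact hsum (by rw [norm_pow]; exact pow_lt_one₀ (norm_nonneg _) hX1 three_ne_zero) h4X
      nlinarith
    refine ⟨hsum (hmul (by exact_mod_cast hn 2) hY1) hX1, ?_⟩
    rw [sub_eq_add_neg, sub_eq_add_neg]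
    refine hsum (hsum hY1 ?_) (by rwa [norm_neg])
    rw [norm_neg, mul_comm]
    rw [norm_mul, norm_pow]
    exact lt_of_le_of_lt (mul_le_of_le_one_right (by positivity) (by exact_mod_cast hn 3))
      (pow_lt_one₀ (norm_nonneg _) hX1 two_ne_zero)

namespace Normalisation

variable (N : Normalisation W F)

theorem norm_tateX_iff {v : Kˣ} (h : ‖(N.qT : K)‖ < ‖(v : K)‖) (h' : ‖(v : K)‖ ≤ 1) (h1 : v ≠ 1) :
    1 ≤ ‖tateX (N.qT : K) v‖ ↔ ‖(v : K)‖ = 1 := by
  refine ⟨fun hx => ?_, fun hv => one_le_norm_tateX hv h1 N.norm_qT_lt⟩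
  by_contra hne
  exact absurd hx (not_le.2 (norm_tateX_lt_one (lt_of_le_of_ne h' hne) h))

theorem nonsingular_residue_iff {x y : Qbar} (hx : x ∈ A) (hy : y ∈ A)
    (h : ((W.map (Int.castRingHom ℚ))⁄Qbar).toAffine.Nonsingular x y) :
    (W.map (Int.castRingHom (IsLocalRing.ResidueField A))).toAffine.Nonsingular
        (IsLocalRing.residue A ⟨x, hx⟩) (IsLocalRing.residue A ⟨y, hy⟩) ↔
      ¬ (‖F.j ((W.a₁ : Qbar) * y - (3 * x ^ 2 + 2 * (W.a₂ : Qbar) * x + (W.a₄ : Qbar)))‖ < 1 ∧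
        ‖F.j (2 * y + (W.a₁ : Qbar) * x + (W.a₃ : Qbar))‖ < 1) := by
  set x' : A := ⟨x, hx⟩
  set y' : A := ⟨y, hy⟩
  have key : ∀ z : A, IsLocalRing.residue A z = 0 ↔ ‖F.j (A.subtype z)‖ < 1 := fun z => by
    rw [IsLocalRing.residue_eq_zero_iff, ← ValuationSubring.coe_mem_nonunits_iff, F.norm_lt_one_iff]
    rfl
  have heq : y ^ 2 + (W.a₁ : Qbar) * x * y + (W.a₃ : Qbar) * y =
      x ^ 3 + (W.a₂ : Qbar) * x ^ 2 + (W.a₄ : Qbar) * x + (W.a₆ : Qbar) := by
    have := h.1
    rw [Affine.equation_iff] at this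
    simpa [WeierstrassCurve.map] using this
  have heq' : y' ^ 2 + (W.a₁ : A) * x' * y' + (W.a₃ : A) * y' =
      x' ^ 3 + (W.a₂ : A) * x' ^ 2 + (W.a₄ : A) * x' + (W.a₆ : A) := by
    refine Subtype.ext ?_
    push_cast
    exact heq
  have he : (W.map (Int.castRingHom (IsLocalRing.ResidueField A))).toAffine.Equation
      (IsLocalRing.residue A x') (IsLocalRing.residue A y') := by
    rw [Affine.equation_iff]
    simpa [WeierstrassCurve.map, map_intCast] using congrArg (IsLocalRing.residue A) heq'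
  rw [Affine.nonsingular_iff', and_iff_right he]
  have e1 := key ((W.a₁ : A) * y' - (3 * x' ^ 2 + 2 * (W.a₂ : A) * x' + (W.a₄ : A)))
  have e2 := key (2 * y' + (W.a₁ : A) * x' + (W.a₃ : A))
  simp only [map_sub, map_add, map_mul, map_pow, map_intCast, map_ofNat] at e1 e2
  rw [show A.subtype x' = x from rfl, show A.subtype y' = y from rfl] at e1 e2
  simp only [map_sub, map_add, map_mul, map_pow, map_intCast, map_ofNat] at e1 e2 ⊢
  rw [← e1, ← e2]
  simp only [WeierstrassCurve.map, eq_intCast, not_and_or, ne_eq]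

omit [CompleteSpace K] [CharZero K] in
theorem norm_lt_one_pair {u s A₁ A₂ B₁ B₂ : K} (hu : ‖u‖ = 1) (hs : ‖s‖ ≤ 1)
    (hB : B₂ = u ^ 3 * A₂) (hA : B₁ = u ^ 4 * A₁ - s * B₂) :
    (‖B₁‖ < 1 ∧ ‖B₂‖ < 1) ↔ (‖A₁‖ < 1 ∧ ‖A₂‖ < 1) := by
  have hBn : ‖B₂‖ = ‖A₂‖ := by rw [hB, norm_mul, norm_pow, hu, one_pow, one_mul]
  have hA1 : ‖u ^ 4 * A₁‖ = ‖A₁‖ := by rw [norm_mul, norm_pow, hu, one_pow, one_mul]
  constructor
  · rintro ⟨h1, h2⟩
    refine ⟨?_, hBn ▸ h2⟩
    rw [← hA1, show u ^ 4 * A₁ = B₁ + s * B₂ by rw [hA]; ring]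
    exact (IsUltrametricDist.norm_add_le_max _ _).trans_lt (max_lt h1
      (lt_of_le_of_lt (by rw [norm_mul]; exact mul_le_of_le_one_left (norm_nonneg _) hs) h2))
  · rintro ⟨h1, h2⟩
    refine ⟨?_, hBn.symm ▸ h2⟩
    rw [hA, sub_eq_add_neg]
    refine (IsUltrametricDist.norm_add_le_max _ _).trans_lt (max_lt (hA1.symm ▸ h1) ?_)
    rw [norm_neg, norm_mul]
    exact lt_of_le_of_lt (mul_le_of_le_one_left (norm_nonneg _) hs) (hBn.symm ▸ h2)

/-- A point lies in the identity component exactly when its parameter is a unit. -/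
theorem inZero_iff {x y : Qbar} (h : ((W.map (Int.castRingHom ℚ))⁄Qbar).toAffine.Nonsingular x y)
    {v : Kˣ} (hv : ‖(N.qT : K)‖ < ‖(v : K)‖) (hv' : ‖(v : K)‖ ≤ 1) (hv1 : v ≠ 1)
    (hx : F.j x = N.px v) (hy : F.j y = N.py v) :
    (x ∉ A ∨ ∃ (hx : x ∈ A) (hy : y ∈ A),
      (W.map (Int.castRingHom (IsLocalRing.ResidueField A))).toAffine.Nonsingular
        (IsLocalRing.residue A ⟨x, hx⟩) (IsLocalRing.residue A ⟨y, hy⟩)) ↔ ‖(v : K)‖ = 1 := by
  rw [← N.norm_tateX_iff hv hv' hv1]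
  set X := tateX (N.qT : K) v with hXdef
  set Y := (tateZ (N.qT : K) v - X) / 2 with hYdef
  have hu : ‖(N.C.u : K) ^ 2 * X‖ = ‖X‖ := by rw [norm_mul, norm_pow, N.norm_u, one_pow, one_mul]
  have hpx : N.px v = (N.C.u : K) ^ 2 * X + N.C.r := rfl
  have hxA : x ∈ A ↔ ‖X‖ ≤ 1 := by
    rw [← F.norm_le_one_iff, hx, hpx]
    refine ⟨fun h => ?_, fun h => norm_add_le_of_le (hu.trans_le h) N.norm_r⟩
    rw [← hu]
    simpa using norm_sub_le_of_le h N.norm_r
  by_cases hxm : x ∈ A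
  · have hXle : ‖X‖ ≤ 1 := hxA.1 hxm
    have heq : Y ^ 2 + X * Y = X ^ 3 + a4Val N.norm_qT_lt * X + a6Val N.norm_qT_lt := by
      have := tate_equation N.norm_qT_lt (u := v)
        ⟨hv, lt_of_le_of_lt (mul_le_of_le_one_right (norm_nonneg _) hv') N.norm_qT_lt⟩ hv1
      rw [← hXdef] at this
      rw [hYdef]
      linear_combination this / 4
    have h4 : ‖a4Val N.norm_qT_lt‖ < 1 := by
      refine lt_of_le_of_lt (norm_intEval_sub_le _ _ (N := 1) fun n hn => ?_)
        (by simpa using N.norm_qT_lt)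
      obtain rfl : n = 0 := by omega
      exact coeff_a4s.1
    have h6 : ‖a6Val N.norm_qT_lt‖ < 1 := by
      refine lt_of_le_of_lt (norm_intEval_sub_le _ _ (N := 1) fun n hn => ?_)
        (by simpa using N.norm_qT_lt)
      obtain rfl : n = 0 := by omega
      exact coeff_a6s.1
    obtain ⟨hY, hnode⟩ := node_criterion h4 h6 hXle heq
    have hpy : N.py v = (N.C.u : K) ^ 3 * Y + (N.C.u : K) ^ 2 * N.C.s * X + N.C.t := rfl
    have hym : y ∈ A := by
      rw [← F.norm_le_one_iff, hy, hpy]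
      refine norm_add_le_of_le (norm_add_le_of_le ?_ ?_) N.norm_t
      · rw [norm_mul, norm_pow, N.norm_u, one_pow, one_mul]; exact hY
      · rw [norm_mul, norm_mul, norm_pow, N.norm_u, one_pow, one_mul]
        exact mul_le_one₀ N.norm_s (norm_nonneg _) hXle
    simp only [hxm, hym, not_true, false_or, exists_true_left]
    rw [nonsingular_residue_iff (F := F) hxm hym h]
    have hu0 := N.C.u.ne_zero
    have e1 := congrArg WeierstrassCurve.a₁ N.smul_eq
    have e3 := congrArg WeierstrassCurve.a₃ N.smul_eq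
    have e4 := congrArg WeierstrassCurve.a₄ N.smul_eq
    have e2 := congrArg WeierstrassCurve.a₂ N.smul_eq
    simp only [variableChange_a₁, variableChange_a₂, variableChange_a₃, variableChange_a₄,
      tateCurve_a₁, tateCurve_a₂, tateCurve_a₃, tateCurve_a₄, Units.val_inv_eq_inv_val] at e1 e2 e3 e4
    field_simp at e1 e2 e3 e4
    simp only [WeierstrassCurve.map_a₁, WeierstrassCurve.map_a₂, WeierstrassCurve.map_a₃,
      WeierstrassCurve.map_a₄, eq_intCast] at e1 e2 e3 e4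
    rw [norm_lt_one_pair (A₁ := Y - 3 * X ^ 2 - a4Val N.norm_qT_lt) (A₂ := 2 * Y + X) N.norm_u
        N.norm_s ?_ ?_, and_comm, hnode, not_lt]
    · simp only [map_add, map_mul, map_intCast, map_ofNat, hx, hy, hpx, hpy]
      linear_combination (N.C.u : K) ^ 2 * X * e1 + e3
    · simp only [map_sub, map_add, map_mul, map_pow, map_intCast, map_ofNat, hx, hy, hpx, hpy]
      linear_combination (N.C.u : K) ^ 3 * Y * e1
        - 2 * (N.C.u : K) ^ 2 * X * e2 - e4
  · simp only [hxm, not_false_eq_true, true_or, true_iff]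
    exact (not_le.1 (fun h => hxm (hxA.2 h))).le

end Normalisation

end Fermat.Agent.Tate
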