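/-
The `n`-torsion over `Qbar` of a multiplicative curve through the uniformisation over the field of
the place.
-/
import Fermat.Agent.Tate.Points
import Fermat.Agent.EC.TorsionCard

set_option autoImplicit false

noncomputable section

namespace Fermat.Agent.Tate

open WeierstrassCurve
open scoped WeierstrassCurve.Affine

local notation "Qbar" => AlgebraicClosure ℚ

variable {K : Type} [NormedField K] [CharZero K]
variable {W : WeierstrassCurve ℤ} {A : ValuationSubring Qbar} {q : ℕ}

theorem baseChange_eq_curve (W : WeierstrassCurve ℤ) (K : Type) [Field K] [CharZero K] :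
    ((W.map (Int.castRingHom ℚ))⁄K : WeierstrassCurve K) = W.map (Int.castRingHom K) := by
  rw [show ((W.map (Int.castRingHom ℚ))⁄K : WeierstrassCurve K)
      = (W.map (Int.castRingHom ℚ)).map (algebraMap ℚ K) from rfl, WeierstrassCurve.map_map,
    RingHom.ext_int ((algebraMap ℚ K).comp (Int.castRingHom ℚ)) (Int.castRingHom K)]

namespace PlaceField

/-- The embedding as an algebra homomorphism. -/
def jAlg (F : PlaceField A q K) : Qbar →ₐ[ℚ] K :=
  { F.j with
    commutes' := fun r => by
      show F.j (algebraMap ℚ Qbar r) = algebraMap ℚ K r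
      rw [eq_ratCast, eq_ratCast, map_ratCast] }

variable [DecidableEq K]

/-- Points over `Qbar` as points over `K`. -/
def pointMap (F : PlaceField A q K) (W : WeierstrassCurve ℤ) :
    QbarPoint W →+ (W.map (Int.castRingHom K)).toAffine.Point :=
  (congrPoints (baseChange_eq_curve W K)).comp (Affine.Point.map F.jAlg)

theorem pointMap_some (F : PlaceField A q K) {x y : Qbar}
    (h : ((W.map (Int.castRingHom ℚ))⁄Qbar).toAffine.Nonsingular x y) :
    ∃ h', F.pointMap W (.some x y h) = .some (F.j x) (F.j y) h' := by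
  unfold pointMap
  rw [AddMonoidHom.comp_apply, Affine.Point.map_some, congrPoints_some]
  exact ⟨_, rfl⟩

theorem pointMap_injective (F : PlaceField A q K) (W : WeierstrassCurve ℤ) :
    Function.Injective (F.pointMap W) :=
  (congrPoints_injective _).comp (Affine.Point.map_injective _)

theorem exists_pointMap_eq (F : PlaceField A q K) (hΔ : W.Δ ≠ 0) {n : ℕ} (hn : n ≠ 0)
    {Q : (W.map (Int.castRingHom K)).toAffine.Point} (hQ : (n : ℤ) • Q = 0) :
    ∃ P : QbarPoint W, (n : ℤ) • P = 0 ∧ F.pointMap W P = Q := by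
  have : (W.map (Int.castRingHom K)).IsElliptic :=
    ⟨isUnit_iff_ne_zero.2 (by
      show (W.map (Int.castRingHom K)).Δ ≠ 0
      rw [map_Δ, eq_intCast]; exact Int.cast_ne_zero.2 hΔ)⟩
  have : WeierstrassCurve.IsElliptic
      (@WeierstrassCurve.Affine.baseChange ℚ _ (W.map (Int.castRingHom ℚ)) Qbar _
        (AlgebraicClosure.instAlgebra ℚ)) :=
    ⟨isUnit_iff_ne_zero.2 (by
      show ((W.map (Int.castRingHom ℚ))⁄Qbar : WeierstrassCurve Qbar).Δ ≠ 0
      rw [baseChange_eq_curve, map_Δ, eq_intCast]; exact Int.cast_ne_zero.2 hΔ)⟩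
  have : Finite (Submodule.torsionBy ℤ (W.map (Int.castRingHom K)).toAffine.Point n) :=
    EC.finite_torsionBy (Nat.cast_ne_zero.2 hn)
  let f : Submodule.torsionBy ℤ (QbarPoint W) n →
      Submodule.torsionBy ℤ (W.map (Int.castRingHom K)).toAffine.Point n := fun P =>
    ⟨F.pointMap W P, by
      rw [Submodule.mem_torsionBy_iff, ← map_zsmul,
        (Submodule.mem_torsionBy_iff _ _).1 P.2, map_zero]⟩
  have hf : Function.Injective f := fun P Q h =>
    Subtype.ext (F.pointMap_injective W (congrArg Subtype.val h))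
  have hb := hf.bijective_of_nat_card_le (by
    rw [EC.card_torsionBy (K := Qbar) (Nat.cast_ne_zero.2 hn)]
    exact EC.card_torsionBy_le (Nat.cast_ne_zero.2 hn))
  obtain ⟨P, hP⟩ := hb.2 ⟨Q, (Submodule.mem_torsionBy_iff _ _).2 hQ⟩
  exact ⟨P, (Submodule.mem_torsionBy_iff _ _).1 P.2, congrArg Subtype.val hP⟩

end PlaceField

variable [IsUltrametricDist K] [CompleteSpace K] [DecidableEq K]
variable {F : PlaceField A q K} (N : Normalisation W F)

namespace Normalisation

/-- Equivariance in terms of points over `Qbar`. -/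
theorem pointMap_smul {P : QbarPoint W} {v : Kˣ}
    (hP : F.pointMap W P = N.unif (Additive.ofMul v)) {τ : K →+* K} (hτc : Continuous τ)
    (hτn : ∀ x, ‖τ x‖ = ‖x‖) {σ : Qbar ≃ₐ[ℚ] Qbar} (hjτ : ∀ x, τ (F.j x) = F.j (σ x)) :
    F.pointMap W (σ • P) =
      twistSign N.δ σ • N.unif (Additive.ofMul (Units.map τ.toMonoidHom v)) := by
  rcases P with _ | ⟨x, y, h⟩
  · have e : N.unif (Additive.ofMul v) = 0 := by rw [← hP]; exact map_zero _
    obtain ⟨k, hk⟩ := (N.unif_eq_zero_iff v).1 e
    have e2 : N.unif (Additive.ofMul (Units.map τ.toMonoidHom v)) = 0 := by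
      refine (N.unif_eq_zero_iff _).2 ⟨k, ?_⟩
      rw [hk, map_zpow]
      congr 1
      exact Units.ext (apply_eq_of_mem_ratClosure hτc N.qT_mem)
    rw [e2, zsmul_zero]
    exact (congrArg (F.pointMap W) (smul_zero σ)).trans (map_zero _)
  · obtain ⟨h', e⟩ := F.pointMap_some h
    rw [e] at hP
    obtain ⟨h'', e''⟩ := N.unif_map hτc hτn hjτ hP.symm
    rw [e'', Affine.Point.algEquiv_smul_def, Affine.Point.map_some]
    obtain ⟨h3, e3⟩ := F.pointMap_some (W := W)
      ((WeierstrassCurve.Affine.baseChange_nonsingular (W.map (Int.castRingHom ℚ)).toAffine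
        (f := σ.toAlgHom) σ.toAlgHom.injective x y).mpr h)
    refine e3.trans ?_
    simp only [Affine.Point.some.injEq, hjτ]
    exact ⟨rfl, rfl⟩

/-- The identity component in terms of the parameter. -/
theorem inZeroComponentAt_iff {P : QbarPoint W} {v : Kˣ}
    (hP : F.pointMap W P = N.unif (Additive.ofMul v)) :
    W.InZeroComponentAt A P ↔ ‖(qReduce N.norm_qT_lt v : K)‖ = 1 := by
  rcases P with _ | ⟨x, y, h⟩
  · have e : N.unif (Additive.ofMul v) = 0 := by rw [← hP]; exact map_zero _
    rw [(N.unif_eq_zero_iff_reduce v).1 e, Units.val_one, norm_one]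
    exact iff_of_true (Or.inl rfl) rfl
  · obtain ⟨h', e⟩ := F.pointMap_some h
    rw [e] at hP
    have h1 : qReduce N.norm_qT_lt v ≠ 1 := fun h1 => by
      rw [(N.unif_eq_zero_iff_reduce v).2 h1] at hP
      exact Affine.Point.some_ne_zero _ hP
    rw [N.unif_some h1, Affine.Point.some.injEq] at hP
    rw [← N.inZero_iff h (qReduce_spec _ v).1 (qReduce_spec _ v).2 h1 hP.1 hP.2]
    constructor
    · rintro (h0 | ⟨x', y', h2, e2, e3⟩)
      · exact absurd h0 (Affine.Point.some_ne_zero h)
      · rw [Affine.Point.some.injEq] at e2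
        obtain ⟨rfl, rfl⟩ := e2
        exact e3
    · exact fun e3 => Or.inr ⟨x, y, h, rfl, e3⟩

end Normalisation

end Fermat.Agent.Tate
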