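/-
Multiplicative reduction: the structure theorem for the torsion as a module over the decomposition
group (via Tate's uniformisation).
-/
import Fermat.Agent.Tate.Defs
import Fermat.Agent.Tate.Descent
import Mathlib.RingTheory.RootsOfUnity.AlgebraicallyClosed

set_option autoImplicit false

noncomputable section

namespace Fermat.Agent.Tate

open scoped WeierstrassCurve.Affine

local notation "Qbar" => AlgebraicClosure ℚ

variable {K : Type} [NormedField K] [IsUltrametricDist K] [CompleteSpace K] [CharZero K]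
variable {W : WeierstrassCurve ℤ} {A : ValuationSubring Qbar} {q : ℕ} {F : PlaceField A q K}

/-- The `n`-torsion through the uniformisation: a root of unity, an `n`-th root of a rational
number close to the Tate parameter, and their images. -/
structure TateParam (N : Normalisation W F) [DecidableEq K] (n : ℕ) where
  ζ : Qbar
  t : Qbar
  q₀ : ℚ
  /-- the corrected `n`-th root of the Tate parameter -/
  tK : Kˣ
  /-- the root of unity in `K` -/
  ζK : Kˣ
  ζ_primitive : IsPrimitiveRoot ζ n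
  t_pow : t ^ n = (q₀ : Qbar)
  q₀_ne_zero : q₀ ≠ 0
  val_q₀ : padicValRat q q₀ = padicValInt q W.Δ
  ζK_eq : (ζK : K) = F.j ζ
  w : K
  w_mem : w ∈ ratClosure K
  tK_eq : (tK : K) = F.j t * w
  tK_pow : tK ^ n = N.qT

theorem exists_tateParam (N : Normalisation W F) [DecidableEq K] (hq : q.Prime) {n : ℕ}
    (hn : n ≠ 0) : Nonempty (TateParam N n) := by
  obtain ⟨ζ, hζ⟩ : ∃ ζ : Qbar, IsPrimitiveRoot ζ n := by
    have : NeZero (n : Qbar) := ⟨Nat.cast_ne_zero.2 hn⟩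
    exact HasEnoughRootsOfUnity.exists_primitiveRoot Qbar n
  have hqT0 : 0 < ‖(N.qT : K)‖ := norm_pos_iff.2 N.qT.ne_zero
  have hnK : 0 < ‖(n : K)‖ := norm_pos_iff.2 (Nat.cast_ne_zero.2 hn)
  obtain ⟨q₀, hq₀⟩ := exists_ratCast_near N.qT_mem (ε := ‖(n : K)‖ ^ 2 * ‖(N.qT : K)‖)
    (by positivity)
  have hlt : ‖(q₀ : K) - N.qT‖ < ‖(N.qT : K)‖ :=
    hq₀.trans_le (mul_le_of_le_one_left (norm_nonneg _)
      (pow_le_one₀ (norm_nonneg _) (IsUltrametricDist.norm_natCast_le_one K n)))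
  have hq₀n : ‖(q₀ : K)‖ = ‖(N.qT : K)‖ := by
    rw [show (q₀ : K) = ((q₀ : K) - N.qT) + N.qT by ring,
      IsUltrametricDist.norm_add_eq_max_of_norm_ne_norm hlt.ne]
    exact max_eq_right hlt.le
  have hq₀0 : (q₀ : K) ≠ 0 := norm_ne_zero_iff.1 (hq₀n ▸ hqT0.ne')
  obtain ⟨w, hwR, hw1, hw⟩ := exists_pow_eq (K := K) hn
    (div_mem N.qT_mem (ratCast_mem_ratClosure q₀)) (by
      rw [div_sub_one hq₀0, norm_div, norm_sub_rev, hq₀n, div_lt_iff₀ hqT0]
      exact hq₀)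
  obtain ⟨t, ht⟩ := IsAlgClosed.exists_pow_nat_eq (q₀ : Qbar) (Nat.pos_of_ne_zero hn)
  have hpow : (F.j t * w) ^ n = N.qT := by
    rw [mul_pow, ← map_pow, ht, map_ratCast, hw, mul_div_cancel₀ _ hq₀0]
  have h0 : F.j t * w ≠ 0 := fun h => by
    rw [h, zero_pow hn] at hpow
    exact N.qT.ne_zero hpow.symm
  have hζ0 : F.j ζ ≠ 0 := (map_ne_zero _).2 (hζ.ne_zero hn)
  have hq₀0' : q₀ ≠ 0 := Rat.cast_ne_zero.1 hq₀0
  refine ⟨⟨ζ, t, q₀, Units.mk0 _ h0, Units.mk0 _ hζ0, hζ, ht, hq₀0', ?_, rfl, w, hwR, rfl,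
    Units.ext (by rw [Units.val_pow_eq_pow_val]; exact hpow)⟩⟩
  have e := F.norm_ratCast_eq_zpow hq hq₀0'
  rw [hq₀n, N.norm_qT, ← zpow_natCast] at e
  exact (zpow_right_injective₀ (norm_pos_iff.2 (Nat.cast_ne_zero.2 hq.ne_zero))
    F.norm_q_lt_one.ne e).symm

namespace TateParam

variable [DecidableEq K] {N : Normalisation W F} {n : ℕ}

theorem ζK_pow (T : TateParam N n) : T.ζK ^ n = 1 :=
  Units.ext (by
    rw [Units.val_pow_eq_pow_val, T.ζK_eq, ← map_pow, T.ζ_primitive.pow_eq_one, map_one,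
      Units.val_one])

theorem ζK_zpow_eq_one_iff (T : TateParam N n) (a : ℤ) :
    T.ζK ^ a = 1 ↔ (n : ℤ) ∣ a := by
  rw [← T.ζ_primitive.zpow_eq_one_iff_dvd, Units.ext_iff, Units.val_zpow_eq_zpow_val, T.ζK_eq,
    ← map_zpow₀, Units.val_one]
  exact map_eq_one_iff _ F.j.injective

/-- The parameter of the combination `a P₁ + b P₂`. -/
def param (T : TateParam N n) (a b : ℤ) : Kˣ := T.ζK ^ a * T.tK ^ b

theorem param_pow (T : TateParam N n) (a b : ℤ) : T.param a b ^ n = N.qT ^ b := by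
  rw [param, mul_pow, ← zpow_natCast, ← zpow_mul, mul_comm a, zpow_mul, zpow_natCast, ζK_pow,
    one_zpow, one_mul, ← zpow_natCast, ← zpow_mul, mul_comm b, zpow_mul, zpow_natCast, T.tK_pow]

omit [DecidableEq K] in
theorem qT_zpow_injective (N : Normalisation W F) {a b : ℤ} (h : N.qT ^ a = N.qT ^ b) : a = b := by
  have e := congrArg (fun x : Kˣ => ‖(x : K)‖) h
  simp only [Units.val_zpow_eq_zpow_val, norm_zpow] at e
  exact zpow_right_injective₀ (norm_pos_iff.2 N.qT.ne_zero) N.norm_qT_lt.ne e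

theorem param_eq_zero (T : TateParam N n) {a b : ℤ}
    (h : N.unif (Additive.ofMul (T.param a b)) = 0) : (n : ℤ) ∣ a ∧ (n : ℤ) ∣ b := by
  obtain ⟨k, hk⟩ := (N.unif_eq_zero_iff _).1 h
  have hb : b = k * n := by
    refine qT_zpow_injective N ?_
    rw [← T.param_pow a b, hk, ← zpow_natCast, ← zpow_mul]
  refine ⟨?_, ⟨k, by rw [hb, mul_comm]⟩⟩
  rw [param, hb, mul_comm k, zpow_mul T.tK, zpow_natCast, T.tK_pow, mul_eq_right] at hk
  exact (T.ζK_zpow_eq_one_iff a).1 hk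

theorem norm_qReduce_param (T : TateParam N n) (hn : n ≠ 0) (a b : ℤ) :
    ‖(qReduce N.norm_qT_lt (T.param a b) : K)‖ = 1 ↔ (n : ℤ) ∣ b := by
  constructor
  · intro h
    set m := qIndex N.norm_qT_lt (T.param a b)
    have e : (qReduce N.norm_qT_lt (T.param a b)) ^ n = N.qT ^ (b + m * n) := by
      rw [qReduce, mul_pow, T.param_pow, zpow_add, zpow_mul, zpow_natCast]
    have e2 := congrArg (fun x : Kˣ => ‖(x : K)‖) e
    simp only [Units.val_pow_eq_pow_val, norm_pow, h, one_pow, Units.val_zpow_eq_zpow_val,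
      norm_zpow] at e2
    have : b + m * n = 0 := (zpow_right_injective₀ (norm_pos_iff.2 N.qT.ne_zero) N.norm_qT_lt.ne
      ((zpow_zero _).trans e2)).symm
    exact ⟨-m, by linear_combination this⟩
  · rintro ⟨k, rfl⟩
    have hζn : ‖((T.ζK ^ a : Kˣ) : K)‖ = 1 := by
      rw [Units.val_zpow_eq_zpow_val, norm_zpow]
      have h1 : ‖(T.ζK : K)‖ ^ n = 1 := by
        rw [← norm_pow, ← Units.val_pow_eq_pow_val, T.ζK_pow, Units.val_one, norm_one]
      rw [(pow_eq_one_iff_of_nonneg (norm_nonneg _) hn).1 h1, one_zpow]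
    rw [qReduce_eq _ (k := -k) (v := T.ζK ^ a)
      (by rw [param, zpow_mul, zpow_natCast, T.tK_pow, mul_assoc, ← zpow_add, add_neg_cancel,
        zpow_zero, mul_one])
      (by rw [hζn]; exact N.norm_qT_lt) hζn.le, hζn]

/-- The points over `Qbar` below the images of the basis parameters. -/
theorem exists_points (T : TateParam N n) (hΔ : W.Δ ≠ 0) (hn : n ≠ 0) :
    ∃ P₁ P₂ : QbarPoint W, (n : ℤ) • P₁ = 0 ∧ (n : ℤ) • P₂ = 0 ∧
      F.pointMap W P₁ = N.unif (Additive.ofMul T.ζK) ∧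
      F.pointMap W P₂ = N.unif (Additive.ofMul T.tK) ∧
      (∀ a b : ℤ, F.pointMap W (a • P₁ + b • P₂) = N.unif (Additive.ofMul (T.param a b))) ∧
      (∀ a b : ℤ, a • P₁ + b • P₂ = 0 → (n : ℤ) ∣ a ∧ (n : ℤ) ∣ b) ∧
      ∀ P : QbarPoint W, (n : ℤ) • P = 0 → ∃ a b : ℤ, P = a • P₁ + b • P₂ := by
  have hunif0 : ∀ v : Kˣ, v ^ n = 1 ∨ v ^ n = N.qT →
      (n : ℤ) • N.unif (Additive.ofMul v) = 0 := by
    intro v hv
    rw [← map_zsmul, ← ofMul_zpow, zpow_natCast]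
    refine (N.unif_eq_zero_iff _).2 ?_
    rcases hv with h | h
    · exact ⟨0, by rw [h, zpow_zero]⟩
    · exact ⟨1, by rw [h, zpow_one]⟩
  obtain ⟨P₁, hn₁, hP₁⟩ := F.exists_pointMap_eq hΔ hn (hunif0 _ (Or.inl T.ζK_pow))
  obtain ⟨P₂, hn₂, hP₂⟩ := F.exists_pointMap_eq hΔ hn (hunif0 _ (Or.inr T.tK_pow))
  have hcomb : ∀ a b : ℤ,
      F.pointMap W (a • P₁ + b • P₂) = N.unif (Additive.ofMul (T.param a b)) := fun a b => by
    rw [map_add, map_zsmul, map_zsmul, hP₁, hP₂, TateParam.param, ofMul_mul, map_add, ofMul_zpow,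
      ofMul_zpow, map_zsmul, map_zsmul]
  have hdvd : ∀ a b : ℤ, a • P₁ + b • P₂ = 0 → (n : ℤ) ∣ a ∧ (n : ℤ) ∣ b := fun a b h => by
    refine T.param_eq_zero ?_
    rw [← hcomb, h, map_zero]
  have : WeierstrassCurve.IsElliptic
      (@WeierstrassCurve.Affine.baseChange ℚ _ (W.map (Int.castRingHom ℚ)) Qbar _
        (AlgebraicClosure.instAlgebra ℚ)) :=
    ⟨isUnit_iff_ne_zero.2 (by
      show ((W.map (Int.castRingHom ℚ))⁄Qbar : WeierstrassCurve Qbar).Δ ≠ 0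
      rw [baseChange_eq_curve, WeierstrassCurve.map_Δ, eq_intCast]
      exact Int.cast_ne_zero.2 hΔ)⟩
  have : Finite (Submodule.torsionBy ℤ (QbarPoint W) n) :=
    EC.finite_torsionBy (Nat.cast_ne_zero.2 hn)
  refine ⟨P₁, P₂, hn₁, hn₂, hP₁, hP₂, hcomb, hdvd, fun P hP => ?_⟩
  let g : Fin n × Fin n → Submodule.torsionBy ℤ (QbarPoint W) n := fun ab =>
    ⟨((ab.1 : ℕ) : ℤ) • P₁ + ((ab.2 : ℕ) : ℤ) • P₂, by
      rw [Submodule.mem_torsionBy_iff, smul_add, smul_comm, hn₁, smul_comm, hn₂]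
      simp⟩
  have hg : Function.Injective g := by
    intro x y h
    have h0 := hdvd ((x.1 : ℕ) - (y.1 : ℕ) : ℤ) ((x.2 : ℕ) - (y.2 : ℕ) : ℤ) (by
      have h' := congrArg Subtype.val h
      simp only [g] at h'
      rw [sub_smul, sub_smul, ← sub_eq_zero.2 h']
      abel)
    have hz : ∀ i j : Fin n, (n : ℤ) ∣ ((i : ℕ) : ℤ) - (j : ℕ) → i = j := fun i j hij => by
      have := Int.eq_zero_of_dvd_of_natAbs_lt_natAbs hij (by have := i.2; have := j.2; omega)
      exact Fin.ext (by omega)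
    exact Prod.ext (hz _ _ h0.1) (hz _ _ h0.2)
  have hb := hg.bijective_of_nat_card_le (by
    rw [EC.card_torsionBy (K := Qbar) (Nat.cast_ne_zero.2 hn)]
    simp [pow_two])
  obtain ⟨ab, hab⟩ := hb.2 ⟨P, (Submodule.mem_torsionBy_iff _ _).2 hP⟩
  exact ⟨_, _, (congrArg Subtype.val hab).symm⟩

/-- Every `n`-torsion point over `Qbar` maps to the image of a parameter `ζ ^ a * t ^ b`. -/
theorem exists_pointMap_eq_unif (T : TateParam N n) (hΔ : W.Δ ≠ 0) (hn : n ≠ 0) {P : QbarPoint W}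
    (hP : (n : ℤ) • P = 0) :
    ∃ a b : ℤ, F.pointMap W P = N.unif (Additive.ofMul (T.param a b)) := by
  obtain ⟨P₁, P₂, -, -, -, -, hcomb, -, hgen⟩ := T.exists_points hΔ hn
  obtain ⟨a, b, rfl⟩ := hgen P hP
  exact ⟨a, b, hcomb a b⟩

end TateParam

theorem tateBasis_of_param [DecidableEq K] {N : Normalisation W F} {n : ℕ} (hΔ : W.Δ ≠ 0)
    (hn : n ≠ 0) (T : TateParam N n) : Nonempty (TateBasis W A q N.δ n) := by
  obtain ⟨P₁, P₂, hn₁, hn₂, hP₁, hP₂, hcomb, hdvd, hgen⟩ := T.exists_points hΔ hn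
  refine ⟨{
    ζ := T.ζ, t := T.t, q₀ := T.q₀, P₁ := P₁, P₂ := P₂
    ζ_primitive := T.ζ_primitive, t_pow := T.t_pow, q₀_ne_zero := T.q₀_ne_zero
    val_q₀ := T.val_q₀, smul_n_P₁ := hn₁, smul_n_P₂ := hn₂
    exists_comb := hgen
    dvd_of_comb_eq_zero := hdvd
    inZeroComponentAt_iff := fun a b => by
      rw [N.inZeroComponentAt_iff (hcomb a b), T.norm_qReduce_param hn]
    smul_P₁ := ?_
    smul_P₂ := ?_ }⟩
  · intro σ hσ a ha
    obtain ⟨τ, hτc, hτn, hjτ⟩ := F.exists_extend σ hσ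
    refine F.pointMap_injective W ?_
    have e : Units.map τ.toMonoidHom T.ζK = T.ζK ^ a := Units.ext (by
      show τ (T.ζK : K) = ((T.ζK ^ a : Kˣ) : K)
      rw [Units.val_pow_eq_pow_val, T.ζK_eq, hjτ]
      exact (congrArg F.j ha).trans (map_pow _ _ _))
    refine (N.pointMap_smul hP₁ hτc hτn hjτ).trans ?_
    rw [e, map_zsmul, hP₁, mul_smul, ofMul_pow, map_nsmul, natCast_zsmul]
  · intro σ hσ k hk
    obtain ⟨τ, hτc, hτn, hjτ⟩ := F.exists_extend σ hσ
    refine F.pointMap_injective W ?_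
    have e : Units.map τ.toMonoidHom T.tK = T.ζK ^ k * T.tK := Units.ext (by
      show τ (T.tK : K) = ((T.ζK ^ k * T.tK : Kˣ) : K)
      rw [Units.val_mul, Units.val_pow_eq_pow_val, T.ζK_eq, T.tK_eq, map_mul, hjτ,
        apply_eq_of_mem_ratClosure hτc T.w_mem, ← mul_assoc, ← map_pow, ← map_mul]
      exact congrArg (fun z => F.j z * T.w) hk)
    refine (N.pointMap_smul hP₂ hτc hτn hjτ).trans ?_
    rw [e, map_zsmul, map_add, map_zsmul, hP₁, hP₂, ofMul_mul,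
      map_add, ofMul_pow, map_nsmul, natCast_zsmul]

/-- At a prime `q` of multiplicative reduction, for every place `A` over `q` there is one
unramified twist `δ` such that every `E[n]` (`n ≠ 0`, also `n` divisible by `q`) has a Tate
basis. -/
theorem exists_tateBasis (W : WeierstrassCurve ℤ) {q : ℕ} (hq : q.Prime) (hΔ : W.Δ ≠ 0)
    (hqΔ : (q : ℤ) ∣ W.Δ) (hqc₄ : ¬ (q : ℤ) ∣ W.c₄)
    (A : ValuationSubring Qbar) (hA : A.LiesOverPrime q) :
    ∃ δ : Qbar, IsTateTwist A δ ∧ ∀ n : ℕ, n ≠ 0 → Nonempty (TateBasis W A q δ n) := by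
  classical
  obtain ⟨K, _, _, _, _, ⟨F⟩⟩ := exists_placeField hq hA
  obtain ⟨N⟩ := exists_normalisation W hq hΔ hqΔ hqc₄ F
  exact ⟨N.δ, N.isTateTwist, fun n hn =>
    (exists_tateParam N hq hn).elim (tateBasis_of_param hΔ hn)⟩

end Fermat.Agent.Tate
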